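/-
S48 (Deligne–Serre), brick B: Hecke operators `T_p` and diamond operators `⟨d⟩` on
`S_k(Γ₁(M))` (helper170).  This file: function-level definitions and the diamond operators.

* `IsInv Γ k f`          : `f ∣[k] γ = f` for all `γ ∈ Γ ≤ SL(2, ℤ)`;
* `diamondRep M d`       : a chosen element of `Γ₀(M)` with lower right entry `≡ d`;
* `diamondFun M k d f`   : `f ∣[k] diamondRep M d`;
* `slash_eq_diamondFun`  : for `Γ₁(M)`-invariant `f`, `f ∣[k] γ = diamondFun M k d f` for EVERY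
  `γ ∈ Γ₀(M)` with lower right entry `≡ d`;
* `diamond M k d`        : the linear endomorphism `⟨d⟩` of `CuspForm (Gamma1 M) k`;
* `diamondMF M k d`      : the same on `ModularForm (Gamma1 M) k`.
-/
import Mathlib
import Fermat.Prelude.Def_ModularForm_HeckeOperatorForms

set_option autoImplicit false

namespace Fermat.Agent.S48.Hecke1

open CongruenceSubgroup ModularForm UpperHalfPlane Matrix.SpecialLinearGroup
open scoped MatrixGroups ModularForm Manifold Pointwise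

/-- Weight-`k` invariance of a function on `ℍ` under a subgroup of `SL(2, ℤ)`. -/
def IsInv (Γ : Subgroup SL(2, ℤ)) (k : ℤ) (f : ℍ → ℂ) : Prop :=
  ∀ γ ∈ Γ, f ∣[k] γ = f

lemma isInv_of_form {Γ : Subgroup SL(2, ℤ)} {k : ℤ} {F : Type*} [FunLike F ℍ ℂ]
    [SlashInvariantFormClass F (Γ : Subgroup (GL (Fin 2) ℝ)) k] (f : F) : IsInv Γ k f :=
  fun γ hγ => SlashInvariantFormClass.slash_action_eq f (mapGL ℝ γ) ⟨γ, hγ, rfl⟩

lemma IsInv.add {Γ : Subgroup SL(2, ℤ)} {k : ℤ} {f g : ℍ → ℂ} (hf : IsInv Γ k f)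
    (hg : IsInv Γ k g) : IsInv Γ k (f + g) := fun γ hγ => by
  rw [SlashAction.add_slash, hf γ hγ, hg γ hγ]

lemma IsInv.smul {Γ : Subgroup SL(2, ℤ)} {k : ℤ} {f : ℍ → ℂ} (hf : IsInv Γ k f) (c : ℂ) :
    IsInv Γ k (c • f) := fun γ hγ => by
  rw [SL_smul_slash, hf γ hγ]

/-- The lower right entry of a product, modulo `M`, when the left factor is in `Γ₀(M)`. -/
lemma gamma0_mul_entry {M : ℕ} {A : SL(2, ℤ)} (hA : A ∈ Gamma0 M) (B : SL(2, ℤ)) :
    (((A * B) 1 1 : ℤ) : ZMod M) = ((A 1 1 : ℤ) : ZMod M) * ((B 1 1 : ℤ) : ZMod M) := by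
  rw [Gamma0_mem] at hA
  have h := (Matrix.two_mul_expl A.1 B.1).2.2.2
  simp only [Matrix.SpecialLinearGroup.coe_mul]
  rw [h]
  push_cast
  rw [hA, zero_mul, zero_add]

lemma mem_Gamma1_of_mem_Gamma0 {M : ℕ} {γ : SL(2, ℤ)} (h0 : γ ∈ Gamma0 M)
    (h1 : ((γ 1 1 : ℤ) : ZMod M) = 1) : γ ∈ Gamma1 M := by
  rw [Gamma1_mem]
  rw [Gamma0_mem] at h0
  refine ⟨?_, h1, h0⟩
  have hdet := γ.det_coe
  rw [Matrix.det_fin_two] at hdet
  have := congrArg (Int.cast : ℤ → ZMod M) hdet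
  push_cast at this
  rw [h0, h1] at this
  simpa using this

lemma Gamma1_le_Gamma0' (M : ℕ) : Gamma1 M ≤ Gamma0 M := Gamma1_in_Gamma0 M

lemma gamma1_entry {M : ℕ} {γ : SL(2, ℤ)} (h : γ ∈ Gamma1 M) : ((γ 1 1 : ℤ) : ZMod M) = 1 :=
  ((Gamma1_mem M γ).mp h).2.1

/-- Every unit of `ZMod M` is the lower right entry of an element of `Γ₀(M)`. -/
theorem exists_gamma0_rep (M : ℕ) [NeZero M] (d : (ZMod M)ˣ) :
    ∃ γ : SL(2, ℤ), γ ∈ Gamma0 M ∧ ((γ 1 1 : ℤ) : ZMod M) = (d : ZMod M) := by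
  have hcop : ((d : ZMod M).val).Coprime M := by
    apply (ZMod.isUnit_iff_coprime _ _).mp
    rw [ZMod.natCast_zmod_val]
    exact d.isUnit
  have hc : IsCoprime (((d : ZMod M).val : ℤ)) (M : ℤ) := Nat.isCoprime_iff_coprime.mpr hcop
  obtain ⟨a, b, hab⟩ := hc
  have hdet : (!![a, -b; (M : ℤ), ((d : ZMod M).val : ℤ)]).det = 1 := by
    rw [Matrix.det_fin_two_of]; linarith
  refine ⟨(⟨!![a, -b; (M : ℤ), ((d : ZMod M).val : ℤ)], hdet⟩ : SL(2, ℤ)), ?_, ?_⟩
  · show (((!![a, -b; (M : ℤ), ((d : ZMod M).val : ℤ)] 1 0 : ℤ)) : ZMod M) = 0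
    simp
  · show (((!![a, -b; (M : ℤ), ((d : ZMod M).val : ℤ)] 1 1 : ℤ)) : ZMod M) = (d : ZMod M)
    simp

/-- A chosen element of `Γ₀(M)` with lower right entry `≡ d`. -/
noncomputable def diamondRep (M : ℕ) [NeZero M] (d : (ZMod M)ˣ) : SL(2, ℤ) :=
  (exists_gamma0_rep M d).choose

lemma diamondRep_mem (M : ℕ) [NeZero M] (d : (ZMod M)ˣ) : diamondRep M d ∈ Gamma0 M :=
  (exists_gamma0_rep M d).choose_spec.1

lemma diamondRep_entry (M : ℕ) [NeZero M] (d : (ZMod M)ˣ) :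
    ((diamondRep M d 1 1 : ℤ) : ZMod M) = (d : ZMod M) :=
  (exists_gamma0_rep M d).choose_spec.2

/-- The diamond operator `⟨d⟩` on functions. -/
noncomputable def diamondFun (M : ℕ) [NeZero M] (k : ℤ) (d : (ZMod M)ˣ) (f : ℍ → ℂ) : ℍ → ℂ :=
  f ∣[k] diamondRep M d

/-- For a `Γ₁(M)`-invariant function, slashing by ANY `γ ∈ Γ₀(M)` with lower right entry `≡ d`
is the diamond operator `⟨d⟩`. -/
theorem slash_eq_diamondFun {M : ℕ} [NeZero M] {k : ℤ} {f : ℍ → ℂ} (hf : IsInv (Gamma1 M) k f)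
    (d : (ZMod M)ˣ) {γ : SL(2, ℤ)} (hγ : γ ∈ Gamma0 M) (hd : ((γ 1 1 : ℤ) : ZMod M) = d) :
    f ∣[k] γ = diamondFun M k d f := by
  have hmem : γ * (diamondRep M d)⁻¹ ∈ Gamma0 M := mul_mem hγ (inv_mem (diamondRep_mem M d))
  have h1 : γ * (diamondRep M d)⁻¹ ∈ Gamma1 M := by
    apply mem_Gamma1_of_mem_Gamma0 hmem
    have h2 := gamma0_mul_entry hmem (diamondRep M d)
    rw [inv_mul_cancel_right, hd, diamondRep_entry] at h2
    have h3 : (((γ * (diamondRep M d)⁻¹) 1 1 : ℤ) : ZMod M) * (d : ZMod M) = 1 * (d : ZMod M) := by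
      rw [one_mul]; exact h2.symm
    exact d.isUnit.mul_right_cancel h3
  have h4 : γ = (γ * (diamondRep M d)⁻¹) * diamondRep M d := by group
  rw [diamondFun]
  conv_lhs => rw [h4]
  rw [SlashAction.slash_mul, hf _ h1]

theorem diamondFun_isInv {M : ℕ} [NeZero M] {k : ℤ} {f : ℍ → ℂ} (hf : IsInv (Gamma1 M) k f)
    (d : (ZMod M)ˣ) : IsInv (Gamma1 M) k (diamondFun M k d f) := by
  intro γ hγ
  have h0 : diamondRep M d * γ ∈ Gamma0 M :=
    mul_mem (diamondRep_mem M d) (Gamma1_in_Gamma0 M hγ)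
  have h1 := slash_eq_diamondFun hf d h0 (by
    rw [gamma0_mul_entry (diamondRep_mem M d), diamondRep_entry, gamma1_entry hγ, mul_one])
  show (f ∣[k] diamondRep M d) ∣[k] γ = diamondFun M k d f
  rw [← SlashAction.slash_mul]
  exact h1

theorem diamondFun_mul {M : ℕ} [NeZero M] {k : ℤ} {f : ℍ → ℂ} (hf : IsInv (Gamma1 M) k f)
    (d e : (ZMod M)ˣ) :
    diamondFun M k d (diamondFun M k e f) = diamondFun M k (d * e) f := by
  have h0 : diamondRep M e * diamondRep M d ∈ Gamma0 M :=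
    mul_mem (diamondRep_mem M e) (diamondRep_mem M d)
  have h1 := slash_eq_diamondFun hf (d * e) h0 (by
    rw [gamma0_mul_entry (diamondRep_mem M e), diamondRep_entry, diamondRep_entry]
    push_cast; ring)
  show (f ∣[k] diamondRep M e) ∣[k] diamondRep M d = diamondFun M k (d * e) f
  rw [← SlashAction.slash_mul]
  exact h1

theorem diamondFun_one {M : ℕ} [NeZero M] {k : ℤ} {f : ℍ → ℂ} (hf : IsInv (Gamma1 M) k f) :
    diamondFun M k 1 f = f := by
  have h1 := slash_eq_diamondFun hf 1 (one_mem (Gamma0 M)) (by simp)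
  rw [← h1, SlashAction.slash_one]

theorem diamondFun_add (M : ℕ) [NeZero M] (k : ℤ) (d : (ZMod M)ˣ) (f g : ℍ → ℂ) :
    diamondFun M k d (f + g) = diamondFun M k d f + diamondFun M k d g :=
  SlashAction.add_slash _ _ _ _

theorem diamondFun_smul (M : ℕ) [NeZero M] (k : ℤ) (d : (ZMod M)ˣ) (c : ℂ) (f : ℍ → ℂ) :
    diamondFun M k d (c • f) = c • diamondFun M k d f :=
  SL_smul_slash _ _ _ _

/-- `Γ₁(M) ≤ ρ⁻¹ Γ₁(M) ρ` for `ρ ∈ Γ₀(M)` (normality of `Γ₁(M)` in `Γ₀(M)`). -/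
lemma gamma1_le_conj {M : ℕ} {ρ : SL(2, ℤ)} (hρ : ρ ∈ Gamma0 M) :
    ((Gamma1 M).map (mapGL ℝ) : Subgroup (GL (Fin 2) ℝ)) ≤
      ConjAct.toConjAct (mapGL ℝ ρ)⁻¹ • ((Gamma1 M).map (mapGL ℝ) : Subgroup (GL (Fin 2) ℝ)) := by
  rintro x ⟨γ, hγ, rfl⟩
  rw [Subgroup.mem_pointwise_smul_iff_inv_smul_mem, ← map_inv, inv_inv, ConjAct.toConjAct_smul]
  refine ⟨ρ * γ * ρ⁻¹, ?_, by simp [map_mul]⟩
  have hγ0 := Gamma1_in_Gamma0 M hγ
  have hmem : ρ * γ * ρ⁻¹ ∈ Gamma0 M := mul_mem (mul_mem hρ hγ0) (inv_mem hρ)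
  apply mem_Gamma1_of_mem_Gamma0 hmem
  have h2 := gamma0_mul_entry hmem ρ
  rw [inv_mul_cancel_right, gamma0_mul_entry hρ, gamma1_entry hγ, mul_one] at h2
  -- h2 : ρ₁₁ = (ργρ⁻¹)₁₁ * ρ₁₁ ; ρ₁₁ is a unit mod M
  have hu : IsUnit ((ρ 1 1 : ℤ) : ZMod M) := by
    have hdet := ρ.det_coe
    rw [Matrix.det_fin_two] at hdet
    have h3 := congrArg (Int.cast : ℤ → ZMod M) hdet
    push_cast at h3
    rw [Gamma0_mem] at hρ
    rw [hρ, mul_zero, sub_zero] at h3
    exact IsUnit.of_mul_eq_one _ (by rw [mul_comm]; exact h3)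
  have h3 : (((ρ * γ * ρ⁻¹) 1 1 : ℤ) : ZMod M) * ((ρ 1 1 : ℤ) : ZMod M) =
      1 * ((ρ 1 1 : ℤ) : ZMod M) := by rw [one_mul]; exact h2.symm
  exact hu.mul_right_cancel h3

/-- The diamond operator `⟨d⟩` on cusp forms of level `Γ₁(M)`. -/
noncomputable def diamond (M : ℕ) [NeZero M] (k : ℤ) (d : (ZMod M)ˣ) :
    CuspForm (Gamma1 M) k →ₗ[ℂ] CuspForm (Gamma1 M) k where
  toFun f :=
    { toFun := diamondFun M k d f
      slash_action_eq' := fun γ hγ => by
        obtain ⟨γ', hγ', rfl⟩ := hγ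
        exact diamondFun_isInv (isInv_of_form f) d γ' hγ'
      holo' := (CuspFormClass.holo f).slash k _
      zero_at_cusps' := fun {c} hc =>
        (CuspForm.translate f (mapGL ℝ (diamondRep M d))).zero_at_cusps'
          (IsCusp.mono (gamma1_le_conj (diamondRep_mem M d)) hc) }
  map_add' f g := DFunLike.coe_injective <|
    show diamondFun M k d ⇑(f + g) = diamondFun M k d ⇑f + diamondFun M k d ⇑g by
      rw [FunLike.coe_add, diamondFun_add]
  map_smul' c f := DFunLike.coe_injective <|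
    show diamondFun M k d ⇑(c • f) = c • diamondFun M k d ⇑f by
      rw [FunLike.coe_smul, diamondFun_smul]

@[simp] lemma coe_diamond (M : ℕ) [NeZero M] (k : ℤ) (d : (ZMod M)ˣ) (f : CuspForm (Gamma1 M) k) :
    ⇑(diamond M k d f) = diamondFun M k d ⇑f := rfl

/-- The diamond operator `⟨d⟩` on modular forms of level `Γ₁(M)`. -/
noncomputable def diamondMF (M : ℕ) [NeZero M] (k : ℤ) (d : (ZMod M)ˣ) :
    ModularForm (Gamma1 M) k →ₗ[ℂ] ModularForm (Gamma1 M) k where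
  toFun f :=
    { toFun := diamondFun M k d f
      slash_action_eq' := fun γ hγ => by
        obtain ⟨γ', hγ', rfl⟩ := hγ
        exact diamondFun_isInv (isInv_of_form f) d γ' hγ'
      holo' := (ModularFormClass.holo f).slash k _
      bdd_at_cusps' := fun {c} hc =>
        (ModularForm.translate f (mapGL ℝ (diamondRep M d))).bdd_at_cusps'
          (IsCusp.mono (gamma1_le_conj (diamondRep_mem M d)) hc) }
  map_add' f g := DFunLike.coe_injective <|
    show diamondFun M k d ⇑(f + g) = diamondFun M k d ⇑f + diamondFun M k d ⇑g by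
      rw [FunLike.coe_add, diamondFun_add]
  map_smul' c f := DFunLike.coe_injective <|
    show diamondFun M k d ⇑(c • f) = c • diamondFun M k d ⇑f by
      rw [FunLike.coe_smul, diamondFun_smul]

@[simp] lemma coe_diamondMF (M : ℕ) [NeZero M] (k : ℤ) (d : (ZMod M)ˣ)
    (f : ModularForm (Gamma1 M) k) : ⇑(diamondMF M k d f) = diamondFun M k d ⇑f := rfl

theorem diamond_mul (M : ℕ) [NeZero M] (k : ℤ) (d e : (ZMod M)ˣ) (f : CuspForm (Gamma1 M) k) :
    diamond M k d (diamond M k e f) = diamond M k (d * e) f :=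
  DFunLike.coe_injective (diamondFun_mul (isInv_of_form f) d e)

theorem diamond_one (M : ℕ) [NeZero M] (k : ℤ) (f : CuspForm (Gamma1 M) k) :
    diamond M k 1 f = f :=
  DFunLike.coe_injective (diamondFun_one (isInv_of_form f))

theorem diamond_comm (M : ℕ) [NeZero M] (k : ℤ) (d e : (ZMod M)ˣ) (f : CuspForm (Gamma1 M) k) :
    diamond M k d (diamond M k e f) = diamond M k e (diamond M k d f) := by
  rw [diamond_mul, diamond_mul, mul_comm]

theorem diamondMF_mul (M : ℕ) [NeZero M] (k : ℤ) (d e : (ZMod M)ˣ)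
    (f : ModularForm (Gamma1 M) k) :
    diamondMF M k d (diamondMF M k e f) = diamondMF M k (d * e) f :=
  DFunLike.coe_injective (diamondFun_mul (isInv_of_form f) d e)

theorem diamondMF_one (M : ℕ) [NeZero M] (k : ℤ) (f : ModularForm (Gamma1 M) k) :
    diamondMF M k 1 f = f :=
  DFunLike.coe_injective (diamondFun_one (isInv_of_form f))

/-- Slashing a cusp form of level `Γ₁(M)` by any `γ ∈ Γ₀(M)` is the diamond operator of its
lower right entry. -/
theorem slash_eq_diamond {M : ℕ} [NeZero M] {k : ℤ} (f : CuspForm (Gamma1 M) k) (d : (ZMod M)ˣ)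
    {γ : SL(2, ℤ)} (hγ : γ ∈ Gamma0 M) (hd : ((γ 1 1 : ℤ) : ZMod M) = d) :
    (f : ℍ → ℂ) ∣[k] γ = diamond M k d f :=
  slash_eq_diamondFun (isInv_of_form f) d hγ hd

end Fermat.Agent.S48.Hecke1
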