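/-
S48 (Deligne–Serre), brick B: the Hecke operator `T_p` on `Γ₁(M)`-invariant functions, and the
MASTER COSET LEMMA `heckeT1Fun_slash` (helper170).

`heckeT1Fun k p f g = heckeU k p f + g ∣[k] diag(p, 1)`; for `g = ⟨p⟩ f` this is `T_p f`.
For `γ ∈ Γ₀(M)` (`p ∤ M` prime) the right translates by `γ` of the `p + 1` summands are a
permutation of the summands of `heckeT1Fun k p f' g'`, where `f' = ⟨d⟩ f`, `g' = ⟨d⟩ g`
(`d` the lower right entry of `γ`).  Consequences: `Γ₁(M)`-invariance of `T_p f` and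
`⟨d⟩ T_p = T_p ⟨d⟩`.
-/
import Fermat.Agent.S48.Hecke1.Defs

set_option autoImplicit false

namespace Fermat.Agent.S48.Hecke1

open CongruenceSubgroup ModularForm UpperHalfPlane Matrix.SpecialLinearGroup
open scoped MatrixGroups ModularForm Manifold

/-! ### Explicit matrices -/

/-- The element of `SL(2, ℤ)` with given entries. -/
def mkSL (a b c d : ℤ) (h : a * d - b * c = 1) : SL(2, ℤ) :=
  ⟨!![a, b; c, d], by rw [Matrix.det_fin_two_of]; exact h⟩

lemma coe_mkSL (a b c d : ℤ) (h : a * d - b * c = 1) :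
    (mkSL a b c d h : Matrix (Fin 2) (Fin 2) ℤ) = !![a, b; c, d] := rfl

lemma mkSL_10 (a b c d : ℤ) (h : a * d - b * c = 1) : (mkSL a b c d h) 1 0 = c := rfl

lemma mkSL_11 (a b c d : ℤ) (h : a * d - b * c = 1) : (mkSL a b c d h) 1 1 = d := rfl

lemma coe_mapGL_mkSL (a b c d : ℤ) (h : a * d - b * c = 1) :
    ((mapGL ℝ (mkSL a b c d h) : GL (Fin 2) ℝ) : Matrix (Fin 2) (Fin 2) ℝ) =
      !![(a : ℝ), (b : ℝ); (c : ℝ), (d : ℝ)] := by
  rw [mapGL_coe_matrix, Matrix.SpecialLinearGroup.map_apply_coe, coe_mkSL]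
  ext i j
  fin_cases i <;> fin_cases j <;> simp

lemma eq_mkSL (γ : SL(2, ℤ)) : ∃ h, γ = mkSL (γ 0 0) (γ 0 1) (γ 1 0) (γ 1 1) h := by
  have hdet := γ.det_coe
  rw [Matrix.det_fin_two] at hdet
  refine ⟨hdet, ?_⟩
  apply Matrix.SpecialLinearGroup.ext
  intro i j
  fin_cases i <;> fin_cases j <;> rfl

lemma gl_eq_of_entries {g h : GL (Fin 2) ℝ} {x00 x01 x10 x11 y00 y01 y10 y11 : ℝ}
    (hg : (g : Matrix (Fin 2) (Fin 2) ℝ) = !![x00, x01; x10, x11])
    (hh : (h : Matrix (Fin 2) (Fin 2) ℝ) = !![y00, y01; y10, y11])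
    (h00 : x00 = y00) (h01 : x01 = y01) (h10 : x10 = y10) (h11 : x11 = y11) : g = h := by
  apply Matrix.GeneralLinearGroup.ext
  intro i j
  rw [hg, hh, h00, h01, h10, h11]

/-- (I1) `β_j γ = γ' β_j'`. -/
lemma heckeMatrix_mul_mkSL {p : ℕ} (hp : p ≠ 0) (j j' : ℕ) (a b c d e : ℤ)
    (h : a * d - b * c = 1) (he : e * p = b + j * d - j' * (a + j * c))
    (h' : (a + j * c) * (d - j' * c) - e * (p * c) = 1) :
    heckeMatrix p j * mapGL ℝ (mkSL a b c d h) =
      mapGL ℝ (mkSL (a + j * c) e (p * c) (d - j' * c) h') * heckeMatrix p j' := by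
  have he' : (e : ℝ) * p = b + j * d - j' * (a + j * c) := by exact_mod_cast he
  refine gl_eq_of_entries (x00 := a + j * c) (x01 := b + j * d) (x10 := p * c) (x11 := p * d)
    (y00 := a + j * c) (y01 := (a + j * c) * j' + e * p) (y10 := p * c)
    (y11 := p * c * j' + (d - j' * c) * p) ?_ ?_ rfl ?_ rfl ?_
  · rw [Matrix.GeneralLinearGroup.coe_mul, val_heckeMatrix hp, coe_mapGL_mkSL, Matrix.mul_fin_two]
    simp
  · rw [Matrix.GeneralLinearGroup.coe_mul, val_heckeMatrix hp, coe_mapGL_mkSL, Matrix.mul_fin_two]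
    simp
  · rw [he']; ring
  · ring

/-- (I2) `β_j γ = γ'' diag(p, 1)`. -/
lemma heckeMatrix_mul_mkSL_diag {p : ℕ} (hp : p ≠ 0) (j : ℕ) (a b c d m : ℤ)
    (h : a * d - b * c = 1) (hm : m * p = a + j * c)
    (h' : m * (p * d) - (b + j * d) * c = 1) :
    heckeMatrix p j * mapGL ℝ (mkSL a b c d h) =
      mapGL ℝ (mkSL m (b + j * d) c (p * d) h') * heckeDiagMatrix p := by
  have hm' : (m : ℝ) * p = a + j * c := by exact_mod_cast hm
  refine gl_eq_of_entries (x00 := a + j * c) (x01 := b + j * d) (x10 := p * c) (x11 := p * d)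
    (y00 := m * p) (y01 := b + j * d) (y10 := c * p) (y11 := p * d) ?_ ?_ hm'.symm rfl
    (mul_comm _ _) rfl
  · rw [Matrix.GeneralLinearGroup.coe_mul, val_heckeMatrix hp, coe_mapGL_mkSL, Matrix.mul_fin_two]
    simp
  · rw [Matrix.GeneralLinearGroup.coe_mul, val_heckeDiagMatrix hp, coe_mapGL_mkSL,
      Matrix.mul_fin_two]
    simp

/-- (I3) `diag(p, 1) γ = γ₃ β_j'`. -/
lemma heckeDiagMatrix_mul_mkSL {p : ℕ} (hp : p ≠ 0) (j' : ℕ) (a b c d n : ℤ)
    (h : a * d - b * c = 1) (hn : n * p = d - j' * c)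
    (h' : p * a * n - (b - j' * a) * c = 1) :
    heckeDiagMatrix p * mapGL ℝ (mkSL a b c d h) =
      mapGL ℝ (mkSL (p * a) (b - j' * a) c n h') * heckeMatrix p j' := by
  have hn' : (n : ℝ) * p = d - j' * c := by exact_mod_cast hn
  refine gl_eq_of_entries (x00 := p * a) (x01 := p * b) (x10 := c) (x11 := d)
    (y00 := p * a) (y01 := p * a * j' + (b - j' * a) * p) (y10 := c) (y11 := c * j' + n * p)
    ?_ ?_ rfl ?_ rfl ?_
  · rw [Matrix.GeneralLinearGroup.coe_mul, val_heckeDiagMatrix hp, coe_mapGL_mkSL,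
      Matrix.mul_fin_two]
    simp
  · rw [Matrix.GeneralLinearGroup.coe_mul, val_heckeMatrix hp, coe_mapGL_mkSL, Matrix.mul_fin_two]
    simp
  · ring
  · rw [hn']; ring

/-- (I4) `diag(p, 1) γ = γ₄ diag(p, 1)`. -/
lemma heckeDiagMatrix_mul_mkSL_diag {p : ℕ} (hp : p ≠ 0) (a b c d c' : ℤ)
    (h : a * d - b * c = 1) (hc : c' * p = c)
    (h' : a * d - p * b * c' = 1) :
    heckeDiagMatrix p * mapGL ℝ (mkSL a b c d h) =
      mapGL ℝ (mkSL a (p * b) c' d h') * heckeDiagMatrix p := by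
  have hc' : (c' : ℝ) * p = c := by exact_mod_cast hc
  refine gl_eq_of_entries (x00 := p * a) (x01 := p * b) (x10 := c) (x11 := d)
    (y00 := a * p) (y01 := p * b) (y10 := c' * p) (y11 := d) ?_ ?_ (mul_comm _ _) rfl
    hc'.symm rfl
  · rw [Matrix.GeneralLinearGroup.coe_mul, val_heckeDiagMatrix hp, coe_mapGL_mkSL,
      Matrix.mul_fin_two]
    simp
  · rw [Matrix.GeneralLinearGroup.coe_mul, val_heckeDiagMatrix hp, coe_mapGL_mkSL,
      Matrix.mul_fin_two]
    simp

/-! ### The Möbius permutation of `ℙ¹(K)` -/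

section Mob

variable {K : Type*} [Field K] [DecidableEq K]

/-- `x ↦ (B + x D) / (A + x C)` on `K ∪ {∞}`. -/
def mob (A B C D : K) : Option K → Option K
  | some x => if A + x * C = 0 then none else some ((B + x * D) / (A + x * C))
  | none => if C = 0 then none else some (D / C)

lemma mob_injective {A B C D : K} (h : A * D - B * C = 1) :
    Function.Injective (mob A B C D) := by
  rintro (_ | x) (_ | y) hxy
  · rfl
  · exfalso
    simp only [mob] at hxy
    by_cases hC : C = 0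
    · rw [if_pos hC] at hxy
      by_cases hy : A + y * C = 0
      · rw [hC, mul_zero, add_zero] at hy
        rw [hy, hC] at h
        simp at h
      · rw [if_neg hy] at hxy
        exact absurd hxy (by simp)
    · rw [if_neg hC] at hxy
      by_cases hy : A + y * C = 0
      · rw [if_pos hy] at hxy
        exact absurd hxy (by simp)
      · rw [if_neg hy, Option.some.injEq, div_eq_div_iff hC hy] at hxy
        have : A * D - B * C = 0 := by linear_combination hxy
        rw [h] at this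
        exact one_ne_zero this
  · exfalso
    simp only [mob] at hxy
    by_cases hC : C = 0
    · rw [if_pos hC] at hxy
      by_cases hx : A + x * C = 0
      · rw [hC, mul_zero, add_zero] at hx
        rw [hx, hC] at h
        simp at h
      · rw [if_neg hx] at hxy
        exact absurd hxy (by simp)
    · rw [if_neg hC] at hxy
      by_cases hx : A + x * C = 0
      · rw [if_pos hx] at hxy
        exact absurd hxy (by simp)
      · rw [if_neg hx, Option.some.injEq, div_eq_div_iff hx hC] at hxy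
        have : A * D - B * C = 0 := by linear_combination -hxy
        rw [h] at this
        exact one_ne_zero this
  · simp only [mob] at hxy
    by_cases hx : A + x * C = 0
    · rw [if_pos hx] at hxy
      by_cases hy : A + y * C = 0
      · have hC : C ≠ 0 := by
          rintro rfl
          rw [mul_zero, add_zero] at hx
          rw [hx] at h
          simp at h
        have : (x - y) * C = 0 := by linear_combination hx - hy
        rcases mul_eq_zero.mp this with h1 | h1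
        · rw [sub_eq_zero.mp h1]
        · exact absurd h1 hC
      · rw [if_neg hy] at hxy
        exact absurd hxy (by simp)
    · rw [if_neg hx] at hxy
      by_cases hy : A + y * C = 0
      · rw [if_pos hy] at hxy
        exact absurd hxy (by simp)
      · rw [if_neg hy, Option.some.injEq, div_eq_div_iff hx hy] at hxy
        have h2 : (x - y) * (A * D - B * C) = 0 := by linear_combination hxy
        rw [h, mul_one] at h2
        rw [sub_eq_zero.mp h2]

end Mob

/-! ### The operator and the master coset lemma -/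

/-- The function-level Hecke operator `U_p f + g ∣[k] diag(p, 1)`; with `g = ⟨p⟩ f` this is
`T_p f` on `Γ₁(M)`. -/
noncomputable def heckeT1Fun (k : ℤ) (p : ℕ) (f g : ℍ → ℂ) : ℍ → ℂ :=
  heckeU k p f + g ∣[k] heckeDiagMatrix p

/-- The `p + 1` summands of `heckeT1Fun`, indexed by `ℙ¹(𝔽_p)`. -/
noncomputable def tFam (k : ℤ) (p : ℕ) (f g : ℍ → ℂ) : Option (ZMod p) → ℍ → ℂ
  | some x => f ∣[k] heckeMatrix p x.val
  | none => g ∣[k] heckeDiagMatrix p

lemma sum_range_eq_sum_zmod {p : ℕ} [NeZero p] {α : Type*} [AddCommMonoid α] (F : ℕ → α) :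
    ∑ j ∈ Finset.range p, F j = ∑ x : ZMod p, F x.val := by
  obtain ⟨n, rfl⟩ : ∃ n, p = n + 1 := Nat.exists_eq_succ_of_ne_zero (NeZero.ne p)
  exact (Fin.sum_univ_eq_sum_range F (n + 1)).symm

lemma heckeT1Fun_eq_sum (k : ℤ) (p : ℕ) [NeZero p] (f g : ℍ → ℂ) :
    heckeT1Fun k p f g = ∑ x : Option (ZMod p), tFam k p f g x := by
  rw [Fintype.sum_option, heckeT1Fun, heckeU_def, sum_range_eq_sum_zmod, add_comm]
  rfl

lemma exists_mul_eq_of_cast_eq_zero {p : ℕ} {t : ℤ} (ht : (t : ZMod p) = 0) :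
    ∃ s : ℤ, s * p = t := by
  obtain ⟨s, hs⟩ := (ZMod.intCast_zmod_eq_zero_iff_dvd t p).mp ht
  exact ⟨s, by rw [hs]; ring⟩

/-- **Master coset lemma**, summand by summand: right translation by `γ = [[a, b], [c, d]] ∈ Γ₀(M)`
permutes the `p + 1` summands through the Möbius action of `γ` on `ℙ¹(𝔽_p)`, replacing
`(f, g)` by `(f', g') = (⟨d⟩ f, ⟨d⟩ g)`. -/
theorem tFam_slash {M p : ℕ} [Fact p.Prime] (hpM : ¬ p ∣ M) (k : ℤ) {f g f' g' : ℍ → ℂ}
    (a b c d : ℤ) (h : a * d - b * c = 1) (hc : (c : ZMod M) = 0)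
    (Hf : ∀ γ' ∈ Gamma0 M, ((γ' 1 1 : ℤ) : ZMod M) = (d : ZMod M) → f ∣[k] γ' = f')
    (Hg : ∀ γ' ∈ Gamma0 M, ((γ' 1 1 : ℤ) : ZMod M) = (d : ZMod M) → g ∣[k] γ' = g')
    (Hfg : ∀ γ' ∈ Gamma0 M, ((γ' 1 1 : ℤ) : ZMod M) = (p : ZMod M) * (d : ZMod M) →
      f ∣[k] γ' = g')
    (Hgf : ∀ γ' ∈ Gamma0 M, (p : ZMod M) * ((γ' 1 1 : ℤ) : ZMod M) = (d : ZMod M) →
      g ∣[k] γ' = f')
    (x : Option (ZMod p)) :
    (tFam k p f g x) ∣[k] (mapGL ℝ (mkSL a b c d h)) =
      tFam k p f' g' (mob (a : ZMod p) (b : ZMod p) (c : ZMod p) (d : ZMod p) x) := by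
  have hp : p.Prime := Fact.out
  have hp0 : p ≠ 0 := hp.ne_zero
  have : NeZero p := ⟨hp0⟩
  rcases x with _ | x
  · -- the summand `g ∣ diag(p, 1)`
    by_cases hC : (c : ZMod p) = 0
    · -- (I4)
      obtain ⟨c', hc'⟩ := exists_mul_eq_of_cast_eq_zero hC
      have h' : a * d - p * b * c' = 1 := by rw [← hc'] at h; linear_combination h
      have hmem : mkSL a (p * b) c' d h' ∈ Gamma0 M := by
        rw [Gamma0_mem]
        show ((c' : ℤ) : ZMod M) = 0
        have hu : IsUnit ((p : ℕ) : ZMod M) :=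
          (ZMod.isUnit_iff_coprime p M).mpr ((Nat.Prime.coprime_iff_not_dvd hp).mpr hpM)
        have h2 : ((c' : ℤ) : ZMod M) * ((p : ℕ) : ZMod M) = 0 := by
          rw [← hc, ← hc']; push_cast; ring
        exact (hu.mul_left_eq_zero).mp h2
      show (g ∣[k] heckeDiagMatrix p) ∣[k] (mapGL ℝ (mkSL a b c d h)) = _
      rw [← SlashAction.slash_mul, heckeDiagMatrix_mul_mkSL_diag hp0 a b c d c' h hc' h',
        SlashAction.slash_mul]
      have h3 : g ∣[k] (mapGL ℝ (mkSL a (p * b) c' d h')) = g' := Hg _ hmem rfl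
      rw [h3]
      simp only [mob, if_pos hC]
      rfl
    · -- (I3)
      obtain ⟨n, hn⟩ := exists_mul_eq_of_cast_eq_zero (p := p)
        (t := d - (((d : ZMod p) / (c : ZMod p)).val : ℤ) * c) (by
          push_cast
          rw [ZMod.natCast_zmod_val, div_mul_cancel₀ _ hC, sub_self])
      set j' : ℕ := ((d : ZMod p) / (c : ZMod p)).val with hj'
      have h' : p * a * n - (b - j' * a) * c = 1 := by linear_combination h + a * hn
      have hmem : mkSL (p * a) (b - j' * a) c n h' ∈ Gamma0 M := by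
        rw [Gamma0_mem]; exact hc
      show (g ∣[k] heckeDiagMatrix p) ∣[k] (mapGL ℝ (mkSL a b c d h)) = _
      rw [← SlashAction.slash_mul, heckeDiagMatrix_mul_mkSL hp0 j' a b c d n h hn h',
        SlashAction.slash_mul]
      have h3 : g ∣[k] (mapGL ℝ (mkSL (p * a) (b - j' * a) c n h')) = f' := by
        refine Hgf _ hmem ?_
        show (p : ZMod M) * ((n : ℤ) : ZMod M) = (d : ZMod M)
        have := congrArg (Int.cast : ℤ → ZMod M) hn
        push_cast at this
        rw [hc, mul_zero, sub_zero] at this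
        rw [← this, mul_comm]
      rw [h3]
      simp only [mob, if_neg hC]
      rfl
  · -- the summand `f ∣ β_x`
    by_cases hx : (a : ZMod p) + x * (c : ZMod p) = 0
    · -- (I2)
      obtain ⟨m, hm⟩ := exists_mul_eq_of_cast_eq_zero (p := p) (t := a + (x.val : ℤ) * c) (by
        push_cast
        rw [ZMod.natCast_zmod_val]; exact hx)
      have h' : m * (p * d) - (b + (x.val : ℤ) * d) * c = 1 := by linear_combination h + d * hm
      have hmem : mkSL m (b + (x.val : ℤ) * d) c (p * d) h' ∈ Gamma0 M := by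
        rw [Gamma0_mem]; exact hc
      show (f ∣[k] heckeMatrix p x.val) ∣[k] (mapGL ℝ (mkSL a b c d h)) = _
      rw [← SlashAction.slash_mul, heckeMatrix_mul_mkSL_diag hp0 x.val a b c d m h hm h',
        SlashAction.slash_mul]
      have h3 : f ∣[k] (mapGL ℝ (mkSL m (b + (x.val : ℤ) * d) c (p * d) h')) = g' := by
        refine Hfg _ hmem ?_
        show (((p : ℤ) * d : ℤ) : ZMod M) = (p : ZMod M) * (d : ZMod M)
        push_cast; rfl
      rw [h3]
      simp only [mob, if_pos hx]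
      rfl
    · -- (I1)
      set y : ZMod p := ((b : ZMod p) + x * (d : ZMod p)) / ((a : ZMod p) + x * (c : ZMod p))
        with hy
      obtain ⟨e, he⟩ := exists_mul_eq_of_cast_eq_zero (p := p)
        (t := b + (x.val : ℤ) * d - (y.val : ℤ) * (a + (x.val : ℤ) * c)) (by
          push_cast
          rw [ZMod.natCast_zmod_val, ZMod.natCast_zmod_val, hy, div_mul_cancel₀ _ hx, sub_self])
      have h' : (a + (x.val : ℤ) * c) * (d - (y.val : ℤ) * c) - e * (p * c) = 1 := by
        linear_combination h - c * he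
      have hmem : mkSL (a + (x.val : ℤ) * c) e (p * c) (d - (y.val : ℤ) * c) h' ∈ Gamma0 M := by
        rw [Gamma0_mem]
        show (((p : ℤ) * c : ℤ) : ZMod M) = 0
        push_cast; rw [hc, mul_zero]
      show (f ∣[k] heckeMatrix p x.val) ∣[k] (mapGL ℝ (mkSL a b c d h)) = _
      rw [← SlashAction.slash_mul, heckeMatrix_mul_mkSL hp0 x.val y.val a b c d e h he h',
        SlashAction.slash_mul]
      have h3 : f ∣[k] (mapGL ℝ (mkSL (a + (x.val : ℤ) * c) e (p * c) (d - (y.val : ℤ) * c) h'))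
          = f' := by
        refine Hf _ hmem ?_
        show (((d - (y.val : ℤ) * c : ℤ)) : ZMod M) = (d : ZMod M)
        push_cast; rw [hc, mul_zero, sub_zero]
      rw [h3]
      simp only [mob, if_neg hx]
      rfl

/-- **Master coset lemma**: for `γ ∈ Γ₀(M)` with lower right entry `d`,
`(U_p f + g ∣ diag(p,1)) ∣ γ = U_p f' + g' ∣ diag(p,1)` as soon as `f ∣ γ' = f'`, `g ∣ γ' = g'`
for `γ' ∈ Γ₀(M)` with lower right entry `≡ d`, `f ∣ γ' = g'` for lower right entry `≡ p d` and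
`g ∣ γ' = f'` for lower right entry `≡ d / p`. -/
theorem heckeT1Fun_slash {M p : ℕ} (hp : p.Prime) (hpM : ¬ p ∣ M) (k : ℤ) {f g f' g' : ℍ → ℂ}
    {γ : SL(2, ℤ)} (hγ : γ ∈ Gamma0 M)
    (Hf : ∀ γ' ∈ Gamma0 M, ((γ' 1 1 : ℤ) : ZMod M) = ((γ 1 1 : ℤ) : ZMod M) → f ∣[k] γ' = f')
    (Hg : ∀ γ' ∈ Gamma0 M, ((γ' 1 1 : ℤ) : ZMod M) = ((γ 1 1 : ℤ) : ZMod M) → g ∣[k] γ' = g')
    (Hfg : ∀ γ' ∈ Gamma0 M,
      ((γ' 1 1 : ℤ) : ZMod M) = (p : ZMod M) * ((γ 1 1 : ℤ) : ZMod M) → f ∣[k] γ' = g')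
    (Hgf : ∀ γ' ∈ Gamma0 M,
      (p : ZMod M) * ((γ' 1 1 : ℤ) : ZMod M) = ((γ 1 1 : ℤ) : ZMod M) → g ∣[k] γ' = f') :
    (heckeT1Fun k p f g) ∣[k] γ = heckeT1Fun k p f' g' := by
  have : Fact p.Prime := ⟨hp⟩
  have : NeZero p := ⟨hp.ne_zero⟩
  obtain ⟨hdet, hγeq⟩ := eq_mkSL γ
  have hc : ((γ 1 0 : ℤ) : ZMod M) = 0 := Gamma0_mem.mp hγ
  have hdet' : ((γ 0 0 : ℤ) : ZMod p) * ((γ 1 1 : ℤ) : ZMod p) -
      ((γ 0 1 : ℤ) : ZMod p) * ((γ 1 0 : ℤ) : ZMod p) = 1 := by
    have := congrArg (Int.cast : ℤ → ZMod p) hdet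
    push_cast at this
    exact this
  have hbij := (mob_injective hdet').bijective_of_finite
  show (heckeT1Fun k p f g) ∣[k] (mapGL ℝ γ) = _
  rw [heckeT1Fun_eq_sum, heckeT1Fun_eq_sum, SlashAction.sum_slash]
  rw [← (Equiv.ofBijective _ hbij).sum_comp (tFam k p f' g')]
  refine Finset.sum_congr rfl fun x _ => ?_
  have := tFam_slash hpM k (γ 0 0) (γ 0 1) (γ 1 0) (γ 1 1) hdet hc Hf Hg Hfg Hgf x
  rw [← hγeq] at this
  exact this

end Fermat.Agent.S48.Hecke1
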