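/-
S48 (Deligne–Serre), brick B: the bundled Hecke operator `T_p` (`p ∤ M` prime) on
`CuspForm (Gamma1 M) k` and `ModularForm (Gamma1 M) k`, and `⟨d⟩ T_p = T_p ⟨d⟩` (helper170).

CONVENTION (classical): `⟨d⟩ f = f ∣[k] γ_d`, `γ_d ∈ Γ₀(M)` with LOWER RIGHT entry `≡ d`;
`T_p f = Σ_{j < p} f ∣[k] [[1, j], [0, p]] + (⟨p⟩ f) ∣[k] [[p, 0], [0, 1]]`.
-/
import Fermat.Agent.S48.Hecke1.Tp

set_option autoImplicit false

namespace Fermat.Agent.S48.Hecke1

open CongruenceSubgroup ModularForm UpperHalfPlane Matrix.SpecialLinearGroup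
open scoped MatrixGroups ModularForm Manifold

/-- The class of a prime `p ∤ M` in `(ℤ/M)ˣ`. -/
noncomputable def primeUnit {M p : ℕ} (hp : p.Prime) (hpM : ¬ p ∣ M) : (ZMod M)ˣ :=
  ZMod.unitOfCoprime p ((Nat.Prime.coprime_iff_not_dvd hp).mpr hpM)

@[simp] lemma coe_primeUnit {M p : ℕ} (hp : p.Prime) (hpM : ¬ p ∣ M) :
    ((primeUnit hp hpM : (ZMod M)ˣ) : ZMod M) = (p : ZMod M) :=
  ZMod.coe_unitOfCoprime _ _

/-- `T_p` on functions: `U_p f + (⟨p⟩ f) ∣[k] diag(p, 1)`. -/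
noncomputable def heckeTpFun (M : ℕ) [NeZero M] (k : ℤ) {p : ℕ} (hp : p.Prime) (hpM : ¬ p ∣ M)
    (f : ℍ → ℂ) : ℍ → ℂ :=
  heckeT1Fun k p f (diamondFun M k (primeUnit hp hpM) f)

lemma heckeTpFun_def (M : ℕ) [NeZero M] (k : ℤ) {p : ℕ} (hp : p.Prime) (hpM : ¬ p ∣ M)
    (f : ℍ → ℂ) :
    heckeTpFun M k hp hpM f =
      heckeU k p f + (diamondFun M k (primeUnit hp hpM) f) ∣[k] heckeDiagMatrix p := rfl

/-- **Coset lemma for `T_p`**: for `Γ₁(M)`-invariant `f` and `γ ∈ Γ₀(M)` with lower right entry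
`≡ d`:  `(T_p f) ∣ γ = T_p (⟨d⟩ f)`. -/
theorem heckeTpFun_slash {M : ℕ} [NeZero M] {k : ℤ} {p : ℕ} (hp : p.Prime) (hpM : ¬ p ∣ M)
    {f : ℍ → ℂ} (hf : IsInv (Gamma1 M) k f) (d : (ZMod M)ˣ) {γ : SL(2, ℤ)} (hγ : γ ∈ Gamma0 M)
    (hd : ((γ 1 1 : ℤ) : ZMod M) = d) :
    (heckeTpFun M k hp hpM f) ∣[k] γ = heckeTpFun M k hp hpM (diamondFun M k d f) := by
  set u : (ZMod M)ˣ := primeUnit hp hpM with hu
  have hdf : IsInv (Gamma1 M) k (diamondFun M k u f) := diamondFun_isInv hf u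
  refine heckeT1Fun_slash hp hpM k hγ ?_ ?_ ?_ ?_
  · intro γ' hγ' he
    exact slash_eq_diamondFun hf d hγ' (he.trans hd)
  · intro γ' hγ' he
    rw [slash_eq_diamondFun hdf d hγ' (he.trans hd), diamondFun_mul hf, diamondFun_mul hf,
      mul_comm]
  · intro γ' hγ' he
    rw [diamondFun_mul hf]
    refine slash_eq_diamondFun hf (u * d) hγ' ?_
    rw [he, hd, Units.val_mul, hu, coe_primeUnit]
  · intro γ' hγ' he
    rw [slash_eq_diamondFun hdf (u⁻¹ * d) hγ' ?_, diamondFun_mul hf]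
    · congr 1
      rw [mul_comm u⁻¹ d, mul_assoc, inv_mul_cancel, mul_one]
    · have hpu : (p : ZMod M) = (u : ZMod M) := (coe_primeUnit hp hpM).symm
      rw [hd, hpu] at he
      have h2 : (u : ZMod M) * ((γ' 1 1 : ℤ) : ZMod M) =
          (u : ZMod M) * ((u⁻¹ * d : (ZMod M)ˣ) : ZMod M) := by
        rw [he, ← Units.val_mul, mul_inv_cancel_left]
      exact u.isUnit.mul_left_cancel h2

/-- `T_p f` is `Γ₁(M)`-invariant. -/
theorem heckeTpFun_isInv {M : ℕ} [NeZero M] {k : ℤ} {p : ℕ} (hp : p.Prime) (hpM : ¬ p ∣ M)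
    {f : ℍ → ℂ} (hf : IsInv (Gamma1 M) k f) : IsInv (Gamma1 M) k (heckeTpFun M k hp hpM f) := by
  intro γ hγ
  rw [heckeTpFun_slash hp hpM hf 1 (Gamma1_in_Gamma0 M hγ) (by rw [gamma1_entry hγ]; simp),
    diamondFun_one hf]

/-- `⟨d⟩ T_p = T_p ⟨d⟩` on `Γ₁(M)`-invariant functions. -/
theorem diamondFun_heckeTpFun {M : ℕ} [NeZero M] {k : ℤ} {p : ℕ} (hp : p.Prime) (hpM : ¬ p ∣ M)
    {f : ℍ → ℂ} (hf : IsInv (Gamma1 M) k f) (d : (ZMod M)ˣ) :
    diamondFun M k d (heckeTpFun M k hp hpM f) = heckeTpFun M k hp hpM (diamondFun M k d f) :=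
  heckeTpFun_slash hp hpM hf d (diamondRep_mem M d) (diamondRep_entry M d)

theorem heckeTpFun_add (M : ℕ) [NeZero M] (k : ℤ) {p : ℕ} (hp : p.Prime) (hpM : ¬ p ∣ M)
    (f g : ℍ → ℂ) :
    heckeTpFun M k hp hpM (f + g) = heckeTpFun M k hp hpM f + heckeTpFun M k hp hpM g := by
  simp only [heckeTpFun_def, heckeU_add, diamondFun_add, SlashAction.add_slash]
  abel

theorem heckeTpFun_smul (M : ℕ) [NeZero M] (k : ℤ) {p : ℕ} (hp : p.Prime) (hpM : ¬ p ∣ M)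
    (c : ℂ) (f : ℍ → ℂ) :
    heckeTpFun M k hp hpM (c • f) = c • heckeTpFun M k hp hpM f := by
  rw [heckeTpFun_def, heckeTpFun_def, heckeU_smul, diamondFun_smul, ModularForm.smul_slash,
    σ_heckeDiagMatrix, ContinuousAlgEquiv.refl_apply, smul_add]

/-! ### Growth conditions -/

lemma isZeroAt_sub {c : OnePoint ℝ} {f f' : ℍ → ℂ} {k : ℤ} (hf : OnePoint.IsZeroAt c f k)
    (hf' : OnePoint.IsZeroAt c f' k) : OnePoint.IsZeroAt c (f - f') k := by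
  intro g hg
  have h1 := hf g hg
  have h2 := hf' g hg
  have h3 : (f - f') ∣[k] g = f ∣[k] g - f' ∣[k] g := by
    rw [sub_eq_add_neg, SlashAction.add_slash, SlashAction.neg_slash, ← sub_eq_add_neg]
  rw [h3]
  unfold UpperHalfPlane.IsZeroAtImInfty Filter.ZeroAtFilter at *
  have h4 := h1.sub h2
  rw [sub_zero] at h4
  exact h4

lemma isBoundedAt_sub {c : OnePoint ℝ} {f f' : ℍ → ℂ} {k : ℤ} (hf : OnePoint.IsBoundedAt c f k)
    (hf' : OnePoint.IsBoundedAt c f' k) : OnePoint.IsBoundedAt c (f - f') k := by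
  intro g hg
  have h1 := hf g hg
  have h2 := hf' g hg
  have h3 : (f - f') ∣[k] g = f ∣[k] g - f' ∣[k] g := by
    rw [sub_eq_add_neg, SlashAction.add_slash, SlashAction.neg_slash, ← sub_eq_add_neg]
  rw [h3]
  unfold UpperHalfPlane.IsBoundedAtImInfty Filter.BoundedAtFilter at *
  exact h1.sub h2

lemma slash_heckeDiagMatrix_eq (k : ℤ) (p : ℕ) (g : ℍ → ℂ) :
    g ∣[k] heckeDiagMatrix p = heckeT k p g - heckeU k p g := by
  rw [heckeT_eq_heckeU_add, add_sub_cancel_left]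

/-- `V`-type translate of a cusp form vanishes at all cusps. -/
lemma isZeroAt_slash_heckeDiagMatrix {Γ : Subgroup (GL (Fin 2) ℝ)} [Γ.IsArithmetic] {k : ℤ}
    {F : Type*} [FunLike F ℍ ℂ] [CuspFormClass F Γ k] (g : F) (p : ℕ) {c : OnePoint ℝ}
    (hc : IsCusp c Γ) : OnePoint.IsZeroAt c ((g : ℍ → ℂ) ∣[k] heckeDiagMatrix p) k := by
  rw [slash_heckeDiagMatrix_eq]
  exact isZeroAt_sub (CuspFormClass.isZeroAt_heckeT g p hc) (CuspFormClass.isZeroAt_heckeU g p hc)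

lemma isBoundedAt_slash_heckeDiagMatrix {Γ : Subgroup (GL (Fin 2) ℝ)} [Γ.IsArithmetic] {k : ℤ}
    {F : Type*} [FunLike F ℍ ℂ] [ModularFormClass F Γ k] (g : F) (p : ℕ) {c : OnePoint ℝ}
    (hc : IsCusp c Γ) : OnePoint.IsBoundedAt c ((g : ℍ → ℂ) ∣[k] heckeDiagMatrix p) k := by
  rw [slash_heckeDiagMatrix_eq]
  exact isBoundedAt_sub (ModularFormClass.isBoundedAt_heckeT g p hc)
    (ModularFormClass.isBoundedAt_heckeU g p hc)

/-! ### The bundled operators -/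

/-- The Hecke operator `T_p` (`p ∤ M` prime) on cusp forms of level `Γ₁(M)`. -/
noncomputable def heckeT1 (M : ℕ) [NeZero M] (k : ℤ) {p : ℕ} (hp : p.Prime) (hpM : ¬ p ∣ M) :
    CuspForm (Gamma1 M) k →ₗ[ℂ] CuspForm (Gamma1 M) k where
  toFun f :=
    { toFun := heckeTpFun M k hp hpM f
      slash_action_eq' := fun γ hγ => by
        obtain ⟨γ', hγ', rfl⟩ := hγ
        exact heckeTpFun_isInv hp hpM (isInv_of_form f) γ' hγ'
      holo' := (mdifferentiable_heckeU (CuspFormClass.holo f) k p).add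
        ((CuspFormClass.holo (diamond M k (primeUnit hp hpM) f)).slash k _)
      zero_at_cusps' := fun {c} hc =>
        (CuspFormClass.isZeroAt_heckeU f p hc).add
          (isZeroAt_slash_heckeDiagMatrix (diamond M k (primeUnit hp hpM) f) p hc) }
  map_add' f g := DFunLike.coe_injective <|
    show heckeTpFun M k hp hpM ⇑(f + g) = heckeTpFun M k hp hpM ⇑f + heckeTpFun M k hp hpM ⇑g by
      rw [FunLike.coe_add, heckeTpFun_add]
  map_smul' c f := DFunLike.coe_injective <|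
    show heckeTpFun M k hp hpM ⇑(c • f) = c • heckeTpFun M k hp hpM ⇑f by
      rw [FunLike.coe_smul, heckeTpFun_smul]

@[simp] lemma coe_heckeT1 (M : ℕ) [NeZero M] (k : ℤ) {p : ℕ} (hp : p.Prime) (hpM : ¬ p ∣ M)
    (f : CuspForm (Gamma1 M) k) : ⇑(heckeT1 M k hp hpM f) = heckeTpFun M k hp hpM ⇑f := rfl

/-- `T_p f = U_p f + (⟨p⟩ f) ∣ diag(p, 1)`. -/
lemma coe_heckeT1_eq (M : ℕ) [NeZero M] (k : ℤ) {p : ℕ} (hp : p.Prime) (hpM : ¬ p ∣ M)
    (f : CuspForm (Gamma1 M) k) :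
    ⇑(heckeT1 M k hp hpM f) =
      heckeU k p ⇑f + (⇑(diamond M k (primeUnit hp hpM) f)) ∣[k] heckeDiagMatrix p := rfl

/-- The Hecke operator `T_p` (`p ∤ M` prime) on modular forms of level `Γ₁(M)`. -/
noncomputable def heckeT1MF (M : ℕ) [NeZero M] (k : ℤ) {p : ℕ} (hp : p.Prime) (hpM : ¬ p ∣ M) :
    ModularForm (Gamma1 M) k →ₗ[ℂ] ModularForm (Gamma1 M) k where
  toFun f :=
    { toFun := heckeTpFun M k hp hpM f
      slash_action_eq' := fun γ hγ => by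
        obtain ⟨γ', hγ', rfl⟩ := hγ
        exact heckeTpFun_isInv hp hpM (isInv_of_form f) γ' hγ'
      holo' := (mdifferentiable_heckeU (ModularFormClass.holo f) k p).add
        ((ModularFormClass.holo (diamondMF M k (primeUnit hp hpM) f)).slash k _)
      bdd_at_cusps' := fun {c} hc =>
        (ModularFormClass.isBoundedAt_heckeU f p hc).add
          (isBoundedAt_slash_heckeDiagMatrix (diamondMF M k (primeUnit hp hpM) f) p hc) }
  map_add' f g := DFunLike.coe_injective <|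
    show heckeTpFun M k hp hpM ⇑(f + g) = heckeTpFun M k hp hpM ⇑f + heckeTpFun M k hp hpM ⇑g by
      rw [FunLike.coe_add, heckeTpFun_add]
  map_smul' c f := DFunLike.coe_injective <|
    show heckeTpFun M k hp hpM ⇑(c • f) = c • heckeTpFun M k hp hpM ⇑f by
      rw [FunLike.coe_smul, heckeTpFun_smul]

@[simp] lemma coe_heckeT1MF (M : ℕ) [NeZero M] (k : ℤ) {p : ℕ} (hp : p.Prime) (hpM : ¬ p ∣ M)
    (f : ModularForm (Gamma1 M) k) : ⇑(heckeT1MF M k hp hpM f) = heckeTpFun M k hp hpM ⇑f := rfl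

/-- `⟨d⟩ T_p = T_p ⟨d⟩` on `S_k(Γ₁(M))`. -/
theorem diamond_heckeT1 (M : ℕ) [NeZero M] (k : ℤ) {p : ℕ} (hp : p.Prime) (hpM : ¬ p ∣ M)
    (d : (ZMod M)ˣ) (f : CuspForm (Gamma1 M) k) :
    diamond M k d (heckeT1 M k hp hpM f) = heckeT1 M k hp hpM (diamond M k d f) :=
  DFunLike.coe_injective (diamondFun_heckeTpFun hp hpM (isInv_of_form f) d)

theorem diamondMF_heckeT1MF (M : ℕ) [NeZero M] (k : ℤ) {p : ℕ} (hp : p.Prime) (hpM : ¬ p ∣ M)
    (d : (ZMod M)ˣ) (f : ModularForm (Gamma1 M) k) :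
    diamondMF M k d (heckeT1MF M k hp hpM f) = heckeT1MF M k hp hpM (diamondMF M k d f) :=
  DFunLike.coe_injective (diamondFun_heckeTpFun hp hpM (isInv_of_form f) d)

/-- Slashing `T_p f` by any `γ ∈ Γ₀(M)` with lower right entry `≡ d` gives `T_p ⟨d⟩ f`. -/
theorem heckeT1_slash {M : ℕ} [NeZero M] {k : ℤ} {p : ℕ} (hp : p.Prime) (hpM : ¬ p ∣ M)
    (f : CuspForm (Gamma1 M) k) (d : (ZMod M)ˣ) {γ : SL(2, ℤ)} (hγ : γ ∈ Gamma0 M)
    (hd : ((γ 1 1 : ℤ) : ZMod M) = d) :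
    (⇑(heckeT1 M k hp hpM f)) ∣[k] γ = heckeT1 M k hp hpM (diamond M k d f) :=
  heckeTpFun_slash hp hpM (isInv_of_form f) d hγ hd

end Fermat.Agent.S48.Hecke1
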