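/-
S48 (Deligne–Serre), brick B: `q`-expansions of `T_p` on `Γ₁(M)` (helper170).

* `HasQ f`        : `f` is `1`-periodic, holomorphic and bounded at `i∞` (has a `q`-expansion);
* `hasQ_of_form`  : every modular form of level `Γ₁(M)` has a `q`-expansion;
* `qCoeff_add/_sub/_smul`, `eq_of_qCoeff_eq` (the `q`-expansion principle);
* `qCoeff_slash_heckeDiagMatrix` : `a_n(g ∣[k] diag(p, 1)) = p^(k-1) a_{n/p}(g)` (`0` if `p ∤ n`);
* `qCoeff_heckeT1` : `a_n(T_p f) = a_{np}(f) + p^(k-1) a_{n/p}(⟨p⟩ f)`.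
-/
import Fermat.Agent.S48.Hecke1.Bundle
import Fermat.Prelude.Def_FLTPrelim_Modularity
import Fermat.Prelude.Thm_UpperHalfPlane_qCoeff_heckeT
import Fermat.Prelude.Thm_UpperHalfPlane_qCoeff_heckeU
import Fermat.Prelude.Thm_ModularForm_periodic_heckeT_comp_ofComplex
import Fermat.Prelude.Thm_ModularForm_periodic_heckeU_comp_ofComplex
import Fermat.Prelude.Thm_ModularForm_isBoundedAtImInfty_heckeT
import Fermat.Prelude.Thm_ModularForm_isBoundedAtImInfty_heckeU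
import Fermat.Prelude.Thm_UpperHalfPlane_eq_of_forall_qCoeff_eq

set_option autoImplicit false

namespace Fermat.Agent.S48.Hecke1

open CongruenceSubgroup ModularForm UpperHalfPlane Matrix.SpecialLinearGroup ModularFormClass
open scoped MatrixGroups ModularForm Manifold

/-- `f` has a `q`-expansion in `q = e^{2πiτ}`: `1`-periodic, holomorphic, bounded at `i∞`. -/
structure HasQ (f : ℍ → ℂ) : Prop where
  per : Function.Periodic (f ∘ ofComplex) 1
  hol : MDifferentiable 𝓘(ℂ) 𝓘(ℂ) f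
  bdd : IsBoundedAtImInfty f

lemma HasQ.analyticAt {f : ℍ → ℂ} (hf : HasQ f) : AnalyticAt ℂ (cuspFunction 1 f) 0 :=
  UpperHalfPlane.analyticAt_cuspFunction_zero one_pos hf.per hf.hol hf.bdd

lemma HasQ.add {f g : ℍ → ℂ} (hf : HasQ f) (hg : HasQ g) : HasQ (f + g) where
  per := fun w => by
    have h1 := hf.per w
    have h2 := hg.per w
    simp only [Function.comp_apply, Pi.add_apply] at h1 h2 ⊢
    rw [h1, h2]
  hol := hf.hol.add hg.hol
  bdd := hf.bdd.add hg.bdd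

lemma HasQ.neg {f : ℍ → ℂ} (hf : HasQ f) : HasQ (-f) where
  per := fun w => by
    have h1 := hf.per w
    simp only [Function.comp_apply, Pi.neg_apply] at h1 ⊢
    rw [h1]
  hol := hf.hol.neg
  bdd := hf.bdd.neg

lemma HasQ.sub {f g : ℍ → ℂ} (hf : HasQ f) (hg : HasQ g) : HasQ (f - g) := by
  rw [sub_eq_add_neg]
  exact hf.add hg.neg

lemma HasQ.smul {f : ℍ → ℂ} (hf : HasQ f) (c : ℂ) : HasQ (c • f) where
  per := fun w => by
    have h1 := hf.per w
    simp only [Function.comp_apply, Pi.smul_apply] at h1 ⊢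
    rw [h1]
  hol := hf.hol.const_smul c
  bdd := hf.bdd.const_smul_left c

lemma HasQ.heckeU {f : ℍ → ℂ} (hf : HasQ f) (k : ℤ) (p : ℕ) : HasQ (heckeU k p f) where
  per := periodic_heckeU_comp_ofComplex hf.per k p
  hol := mdifferentiable_heckeU hf.hol k p
  bdd := isBoundedAtImInfty_heckeU hf.bdd k p

lemma HasQ.heckeT {f : ℍ → ℂ} (hf : HasQ f) (k : ℤ) (p : ℕ) : HasQ (heckeT k p f) where
  per := periodic_heckeT_comp_ofComplex hf.per k p
  hol := mdifferentiable_heckeT hf.hol k p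
  bdd := isBoundedAtImInfty_heckeT hf.bdd k p

lemma HasQ.slash_heckeDiagMatrix {f : ℍ → ℂ} (hf : HasQ f) (k : ℤ) (p : ℕ) :
    HasQ (f ∣[k] heckeDiagMatrix p) := by
  rw [slash_heckeDiagMatrix_eq]
  exact (hf.heckeT k p).sub (hf.heckeU k p)

/-- `1` is a strict period of `Γ₁(M)`. -/
theorem one_mem_strictPeriods_Gamma1 (M : ℕ) :
    (1 : ℝ) ∈ ((Gamma1 M).map (mapGL ℝ)).strictPeriods := by
  have hT : ModularGroup.T ∈ Gamma1 M := by
    rw [Gamma1_mem]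
    simp [ModularGroup.T]
  rw [Subgroup.strictPeriods_eq_zmultiples_one_of_T_mem hT]
  exact AddSubgroup.mem_zmultiples (1 : ℝ)

/-- Every modular form of level `Γ₁(M)` has a `q`-expansion. -/
theorem hasQ_of_form {M : ℕ} {k : ℤ} {F : Type*} [FunLike F ℍ ℂ]
    [ModularFormClass F ((Gamma1 M).map (mapGL ℝ)) k] (f : F) : HasQ (f : ℍ → ℂ) where
  per := SlashInvariantFormClass.periodic_comp_ofComplex f (one_mem_strictPeriods_Gamma1 M)
  hol := ModularFormClass.holo f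
  bdd :=
    have : Fact (IsCusp OnePoint.infty ((Gamma1 M).map (mapGL ℝ))) :=
      ⟨Subgroup.isCusp_of_mem_strictPeriods one_pos (one_mem_strictPeriods_Gamma1 M)⟩
    ModularFormClass.bdd_at_infty f

/-! ### `q`-coefficients -/

theorem qCoeff_add {f g : ℍ → ℂ} (hf : HasQ f) (hg : HasQ g) (n : ℕ) :
    qCoeff (f + g) n = qCoeff f n + qCoeff g n := by
  unfold qCoeff
  rw [qExpansion_add hf.analyticAt hg.analyticAt, map_add]

theorem qCoeff_sub {f g : ℍ → ℂ} (hf : HasQ f) (hg : HasQ g) (n : ℕ) :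
    qCoeff (f - g) n = qCoeff f n - qCoeff g n := by
  unfold qCoeff
  rw [qExpansion_sub hf.analyticAt hg.analyticAt, map_sub]

theorem qCoeff_smul {f : ℍ → ℂ} (hf : HasQ f) (c : ℂ) (n : ℕ) :
    qCoeff (c • f) n = c * qCoeff f n := by
  unfold qCoeff
  rw [qExpansion_smul hf.analyticAt, PowerSeries.coeff_smul, smul_eq_mul]

/-- The `q`-expansion principle. -/
theorem eq_of_qCoeff_eq {f g : ℍ → ℂ} (hf : HasQ f) (hg : HasQ g)
    (h : ∀ n : ℕ, qCoeff f n = qCoeff g n) : f = g :=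
  UpperHalfPlane.eq_of_forall_qCoeff_eq hf.per hf.hol hf.bdd hg.per hg.hol hg.bdd h

theorem qCoeff_heckeU_fun {f : ℍ → ℂ} (hf : HasQ f) (k : ℤ) {p : ℕ} (hp : p ≠ 0) (n : ℕ) :
    qCoeff (heckeU k p f) n = qCoeff f (n * p) :=
  UpperHalfPlane.qCoeff_heckeU hf.per hf.hol hf.bdd k hp n

/-- `a_n(g ∣[k] diag(p, 1)) = p^(k-1) a_{n/p}(g)` if `p ∣ n`, and `0` otherwise. -/
theorem qCoeff_slash_heckeDiagMatrix {g : ℍ → ℂ} (hg : HasQ g) (k : ℤ) {p : ℕ} (hp : p ≠ 0)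
    (n : ℕ) :
    qCoeff (g ∣[k] heckeDiagMatrix p) n =
      if p ∣ n then (p : ℂ) ^ (k - 1) * qCoeff g (n / p) else 0 := by
  rw [slash_heckeDiagMatrix_eq, qCoeff_sub (hg.heckeT k p) (hg.heckeU k p),
    UpperHalfPlane.qCoeff_heckeT hg.per hg.hol hg.bdd k hp n,
    UpperHalfPlane.qCoeff_heckeU hg.per hg.hol hg.bdd k hp n, coeffHeckeT_eq_coeffHeckeU_add,
    add_sub_cancel_left]

/-- `a_n(U_p f + g ∣[k] diag(p, 1)) = a_{np}(f) + p^(k-1) a_{n/p}(g)`. -/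
theorem qCoeff_heckeT1Fun {f g : ℍ → ℂ} (hf : HasQ f) (hg : HasQ g) (k : ℤ) {p : ℕ}
    (hp : p ≠ 0) (n : ℕ) :
    qCoeff (heckeT1Fun k p f g) n =
      qCoeff f (n * p) + if p ∣ n then (p : ℂ) ^ (k - 1) * qCoeff g (n / p) else 0 := by
  rw [heckeT1Fun, qCoeff_add (hf.heckeU k p) (hg.slash_heckeDiagMatrix k p),
    qCoeff_heckeU_fun hf k hp, qCoeff_slash_heckeDiagMatrix hg k hp]

/-- **`q`-expansion of `T_p`** on `S_k(Γ₁(M))`:
`a_n(T_p f) = a_{np}(f) + p^(k-1) a_{n/p}(⟨p⟩ f)`. -/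
theorem qCoeff_heckeT1 (M : ℕ) [NeZero M] (k : ℤ) {p : ℕ} (hp : p.Prime) (hpM : ¬ p ∣ M)
    (f : CuspForm (Gamma1 M) k) (n : ℕ) :
    qCoeff (heckeT1 M k hp hpM f) n =
      qCoeff f (n * p) +
        if p ∣ n then (p : ℂ) ^ (k - 1) * qCoeff (diamond M k (primeUnit hp hpM) f) (n / p)
        else 0 :=
  qCoeff_heckeT1Fun (hasQ_of_form f) (hasQ_of_form (diamond M k (primeUnit hp hpM) f)) k
    hp.ne_zero n

theorem qCoeff_heckeT1MF (M : ℕ) [NeZero M] (k : ℤ) {p : ℕ} (hp : p.Prime) (hpM : ¬ p ∣ M)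
    (f : ModularForm (Gamma1 M) k) (n : ℕ) :
    qCoeff (heckeT1MF M k hp hpM f) n =
      qCoeff f (n * p) +
        if p ∣ n then (p : ℂ) ^ (k - 1) * qCoeff (diamondMF M k (primeUnit hp hpM) f) (n / p)
        else 0 :=
  qCoeff_heckeT1Fun (hasQ_of_form f) (hasQ_of_form (diamondMF M k (primeUnit hp hpM) f)) k
    hp.ne_zero n

/-- Two cusp forms of level `Γ₁(M)` with the same `q`-coefficients are equal. -/
theorem cuspForm_ext_qCoeff {M : ℕ} {k : ℤ} {f g : CuspForm (Gamma1 M) k}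
    (h : ∀ n : ℕ, qCoeff f n = qCoeff g n) : f = g :=
  DFunLike.coe_injective (eq_of_qCoeff_eq (hasQ_of_form f) (hasQ_of_form g) h)

theorem modularForm_ext_qCoeff {M : ℕ} {k : ℤ} {f g : ModularForm (Gamma1 M) k}
    (h : ∀ n : ℕ, qCoeff f n = qCoeff g n) : f = g :=
  DFunLike.coe_injective (eq_of_qCoeff_eq (hasQ_of_form f) (hasQ_of_form g) h)

end Fermat.Agent.S48.Hecke1
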