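/-
S48 (Deligne–Serre), brick B: `T_p T_q = T_q T_p` on `S_k(Γ₁(M))` and `M_k(Γ₁(M))` for primes
`p, q ∤ M`, by the `q`-expansion principle (helper170).
-/
import Fermat.Agent.S48.Hecke1.QExp

set_option autoImplicit false

namespace Fermat.Agent.S48.Hecke1

open CongruenceSubgroup ModularForm UpperHalfPlane Matrix.SpecialLinearGroup ModularFormClass
open scoped MatrixGroups ModularForm Manifold

/-- The combinatorial identity behind `T_p T_q = T_q T_p`. -/
lemma coeff_comm {p q : ℕ} (hp : p.Prime) (hq : q.Prime) (hpq : p ≠ q) (x y : ℂ)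
    (A B C D : ℕ → ℂ) (n : ℕ) :
    (A (n * p * q) + if q ∣ n * p then y * C (n * p / q) else 0) +
        (if p ∣ n then x * (B (n / p * q) + if q ∣ n / p then y * D (n / p / q) else 0) else 0) =
      (A (n * q * p) + if p ∣ n * q then x * B (n * q / p) else 0) +
        (if q ∣ n then y * (C (n / q * p) + if p ∣ n / q then x * D (n / q / p) else 0) else 0) := by
  have hcop : Nat.Coprime p q := (Nat.coprime_primes hp hq).mpr hpq
  have e1 : q ∣ n * p ↔ q ∣ n := Nat.Coprime.dvd_mul_right hcop.symm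
  have e2 : p ∣ n * q ↔ p ∣ n := Nat.Coprime.dvd_mul_right hcop
  have e3 : n * p * q = n * q * p := by ring
  have e8 : n / p / q = n / q / p := by
    rw [Nat.div_div_eq_div_mul, Nat.div_div_eq_div_mul, mul_comm]
  by_cases hpn : p ∣ n <;> by_cases hqn : q ∣ n
  · have e4 : q ∣ n / p := by
      obtain ⟨m, rfl⟩ := hpn
      rw [Nat.mul_div_cancel_left _ hp.pos]
      exact (Nat.Coprime.dvd_mul_left hcop.symm).mp hqn
    have e5 : p ∣ n / q := by
      obtain ⟨m, rfl⟩ := hqn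
      rw [Nat.mul_div_cancel_left _ hq.pos]
      exact (Nat.Coprime.dvd_mul_left hcop).mp hpn
    have e6 : n * p / q = n / q * p := (Nat.div_mul_right_comm hqn p).symm
    have e7 : n * q / p = n / p * q := (Nat.div_mul_right_comm hpn q).symm
    rw [if_pos (e1.mpr hqn), if_pos hpn, if_pos e4, if_pos (e2.mpr hpn), if_pos hqn, if_pos e5,
      e3, e6, e7, e8]
    ring
  · have e4 : ¬ q ∣ n / p := fun h4 => hqn ((h4.trans (Nat.div_dvd_of_dvd hpn)))
    have e7 : n * q / p = n / p * q := (Nat.div_mul_right_comm hpn q).symm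
    rw [if_neg (fun h => hqn (e1.mp h)), if_pos hpn, if_neg e4, if_pos (e2.mpr hpn), if_neg hqn,
      e3, e7]
    ring
  · have e5 : ¬ p ∣ n / q := fun h5 => hpn ((h5.trans (Nat.div_dvd_of_dvd hqn)))
    have e6 : n * p / q = n / q * p := (Nat.div_mul_right_comm hqn p).symm
    rw [if_pos (e1.mpr hqn), if_neg hpn, if_neg (fun h => hpn (e2.mp h)), if_pos hqn, if_neg e5,
      e3, e6]
    ring
  · rw [if_neg (fun h => hqn (e1.mp h)), if_neg hpn, if_neg (fun h => hpn (e2.mp h)), if_neg hqn,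
      e3]

/-- **`T_p T_q = T_q T_p`** on `S_k(Γ₁(M))`. -/
theorem heckeT1_comm (M : ℕ) [NeZero M] (k : ℤ) {p q : ℕ} (hp : p.Prime) (hpM : ¬ p ∣ M)
    (hq : q.Prime) (hqM : ¬ q ∣ M) (f : CuspForm (Gamma1 M) k) :
    heckeT1 M k hp hpM (heckeT1 M k hq hqM f) = heckeT1 M k hq hqM (heckeT1 M k hp hpM f) := by
  by_cases hpq : p = q
  · subst hpq; rfl
  apply cuspForm_ext_qCoeff
  intro n
  rw [qCoeff_heckeT1 M k hp hpM (heckeT1 M k hq hqM f) n, diamond_heckeT1,
    qCoeff_heckeT1 M k hq hqM f (n * p),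
    qCoeff_heckeT1 M k hq hqM (diamond M k (primeUnit hp hpM) f) (n / p),
    qCoeff_heckeT1 M k hq hqM (heckeT1 M k hp hpM f) n, diamond_heckeT1,
    qCoeff_heckeT1 M k hp hpM f (n * q),
    qCoeff_heckeT1 M k hp hpM (diamond M k (primeUnit hq hqM) f) (n / q),
    diamond_comm M k (primeUnit hq hqM) (primeUnit hp hpM) f]
  exact coeff_comm hp hq hpq _ _ _ _ _ _ n

/-- `T_p T_q = T_q T_p` on `M_k(Γ₁(M))`. -/
theorem heckeT1MF_comm (M : ℕ) [NeZero M] (k : ℤ) {p q : ℕ} (hp : p.Prime) (hpM : ¬ p ∣ M)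
    (hq : q.Prime) (hqM : ¬ q ∣ M) (f : ModularForm (Gamma1 M) k) :
    heckeT1MF M k hp hpM (heckeT1MF M k hq hqM f) =
      heckeT1MF M k hq hqM (heckeT1MF M k hp hpM f) := by
  by_cases hpq : p = q
  · subst hpq; rfl
  apply modularForm_ext_qCoeff
  intro n
  have hdc : diamondMF M k (primeUnit hq hqM) (diamondMF M k (primeUnit hp hpM) f) =
      diamondMF M k (primeUnit hp hpM) (diamondMF M k (primeUnit hq hqM) f) := by
    rw [diamondMF_mul, diamondMF_mul, mul_comm]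
  rw [qCoeff_heckeT1MF M k hp hpM (heckeT1MF M k hq hqM f) n, diamondMF_heckeT1MF,
    qCoeff_heckeT1MF M k hq hqM f (n * p),
    qCoeff_heckeT1MF M k hq hqM (diamondMF M k (primeUnit hp hpM) f) (n / p),
    qCoeff_heckeT1MF M k hq hqM (heckeT1MF M k hp hpM f) n, diamondMF_heckeT1MF,
    qCoeff_heckeT1MF M k hp hpM f (n * q),
    qCoeff_heckeT1MF M k hp hpM (diamondMF M k (primeUnit hq hqM) f) (n / q), hdc]
  exact coeff_comm hp hq hpq _ _ _ _ _ _ n

/-- Operator form: all `T_p` (`p ∤ M`) and all `⟨d⟩` commute pairwise in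
`Module.End ℂ (CuspForm (Gamma1 M) k)`. -/
theorem heckeT1_mul_comm (M : ℕ) [NeZero M] (k : ℤ) {p q : ℕ} (hp : p.Prime) (hpM : ¬ p ∣ M)
    (hq : q.Prime) (hqM : ¬ q ∣ M) :
    (heckeT1 M k hp hpM : Module.End ℂ (CuspForm (Gamma1 M) k)) * heckeT1 M k hq hqM =
      heckeT1 M k hq hqM * heckeT1 M k hp hpM :=
  LinearMap.ext fun f => heckeT1_comm M k hp hpM hq hqM f

theorem diamond_mul_heckeT1 (M : ℕ) [NeZero M] (k : ℤ) {p : ℕ} (hp : p.Prime) (hpM : ¬ p ∣ M)
    (d : (ZMod M)ˣ) :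
    (diamond M k d : Module.End ℂ (CuspForm (Gamma1 M) k)) * heckeT1 M k hp hpM =
      heckeT1 M k hp hpM * diamond M k d :=
  LinearMap.ext fun f => diamond_heckeT1 M k hp hpM d f

theorem diamond_mul_comm (M : ℕ) [NeZero M] (k : ℤ) (d e : (ZMod M)ˣ) :
    (diamond M k d : Module.End ℂ (CuspForm (Gamma1 M) k)) * diamond M k e =
      diamond M k e * diamond M k d :=
  LinearMap.ext fun f => diamond_comm M k d e f

theorem diamond_mul_eq (M : ℕ) [NeZero M] (k : ℤ) (d e : (ZMod M)ˣ) :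
    (diamond M k d : Module.End ℂ (CuspForm (Gamma1 M) k)) * diamond M k e =
      diamond M k (d * e) :=
  LinearMap.ext fun f => diamond_mul M k d e f

theorem diamond_one_eq (M : ℕ) [NeZero M] (k : ℤ) :
    (diamond M k 1 : Module.End ℂ (CuspForm (Gamma1 M) k)) = 1 :=
  LinearMap.ext fun f => diamond_one M k f

end Fermat.Agent.S48.Hecke1
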