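/-
S48 (Deligne–Serre), brick B: change of level `Γ₁(N) ⊇ Γ₁(M)` for `N ∣ M` (helper170).

* `levelIncl h f`   : `CuspForm (Gamma1 N) k → CuspForm (Gamma1 M) k` (same function), linear;
* `levelInclMF h f` : the same for `ModularForm`;
* `diamond_levelIncl` : `⟨d⟩_M (incl f) = incl (⟨d mod N⟩_N f)`;
* `heckeT1_levelIncl` : `T_p^{(M)} (incl f) = incl (T_p^{(N)} f)` for primes `p ∤ M`.
-/
import Fermat.Agent.S48.Hecke1.QExp

set_option autoImplicit false

namespace Fermat.Agent.S48.Hecke1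

open CongruenceSubgroup ModularForm UpperHalfPlane Matrix.SpecialLinearGroup ModularFormClass
open scoped MatrixGroups ModularForm Manifold

lemma intCast_eq_of_dvd {N M : ℕ} (h : N ∣ M) {x y : ℤ} (hxy : (x : ZMod M) = (y : ZMod M)) :
    (x : ZMod N) = (y : ZMod N) := by
  have := congrArg (ZMod.castHom h (ZMod N)) hxy
  rw [map_intCast, map_intCast] at this
  exact this

lemma intCast_eq_zero_of_dvd {N M : ℕ} (h : N ∣ M) {x : ℤ} (hx : (x : ZMod M) = 0) :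
    (x : ZMod N) = 0 := by
  have := congrArg (ZMod.castHom h (ZMod N)) hx
  rw [map_intCast, map_zero] at this
  exact this

lemma intCast_eq_one_of_dvd {N M : ℕ} (h : N ∣ M) {x : ℤ} (hx : (x : ZMod M) = 1) :
    (x : ZMod N) = 1 := by
  have := congrArg (ZMod.castHom h (ZMod N)) hx
  rw [map_intCast, map_one] at this
  exact this

lemma gamma0_le_of_dvd {N M : ℕ} (h : N ∣ M) : Gamma0 M ≤ Gamma0 N := by
  intro γ hγ
  rw [Gamma0_mem] at hγ ⊢
  exact intCast_eq_zero_of_dvd h hγ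

lemma gamma1_le_of_dvd {N M : ℕ} (h : N ∣ M) : Gamma1 M ≤ Gamma1 N := by
  intro γ hγ
  rw [Gamma1_mem] at hγ ⊢
  exact ⟨intCast_eq_one_of_dvd h hγ.1, intCast_eq_one_of_dvd h hγ.2.1,
    intCast_eq_zero_of_dvd h hγ.2.2⟩

lemma map_gamma1_le_of_dvd {N M : ℕ} (h : N ∣ M) :
    ((Gamma1 M).map (mapGL ℝ) : Subgroup (GL (Fin 2) ℝ)) ≤ (Gamma1 N).map (mapGL ℝ) :=
  Subgroup.map_mono (gamma1_le_of_dvd h)

lemma IsInv.of_dvd {N M : ℕ} (h : N ∣ M) {k : ℤ} {f : ℍ → ℂ} (hf : IsInv (Gamma1 N) k f) :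
    IsInv (Gamma1 M) k f := fun γ hγ => hf γ (gamma1_le_of_dvd h hγ)

/-- Level inclusion `S_k(Γ₁(N)) → S_k(Γ₁(M))`, `N ∣ M`. -/
noncomputable def levelIncl {N M : ℕ} (h : N ∣ M) (k : ℤ) :
    CuspForm (Gamma1 N) k →ₗ[ℂ] CuspForm (Gamma1 M) k where
  toFun f :=
    { toFun := f
      slash_action_eq' := fun γ hγ => f.slash_action_eq' γ (map_gamma1_le_of_dvd h hγ)
      holo' := f.holo'
      zero_at_cusps' := fun hc => f.zero_at_cusps' (hc.mono (map_gamma1_le_of_dvd h)) }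
  map_add' _ _ := rfl
  map_smul' _ _ := rfl

@[simp] lemma coe_levelIncl {N M : ℕ} (h : N ∣ M) (k : ℤ) (f : CuspForm (Gamma1 N) k) :
    ⇑(levelIncl h k f) = ⇑f := rfl

/-- Level inclusion `M_k(Γ₁(N)) → M_k(Γ₁(M))`, `N ∣ M`. -/
noncomputable def levelInclMF {N M : ℕ} (h : N ∣ M) (k : ℤ) :
    ModularForm (Gamma1 N) k →ₗ[ℂ] ModularForm (Gamma1 M) k where
  toFun f :=
    { toFun := f
      slash_action_eq' := fun γ hγ => f.slash_action_eq' γ (map_gamma1_le_of_dvd h hγ)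
      holo' := f.holo'
      bdd_at_cusps' := fun hc => f.bdd_at_cusps' (hc.mono (map_gamma1_le_of_dvd h)) }
  map_add' _ _ := rfl
  map_smul' _ _ := rfl

@[simp] lemma coe_levelInclMF {N M : ℕ} (h : N ∣ M) (k : ℤ) (f : ModularForm (Gamma1 N) k) :
    ⇑(levelInclMF h k f) = ⇑f := rfl

lemma levelIncl_injective {N M : ℕ} (h : N ∣ M) (k : ℤ) :
    Function.Injective (levelIncl h k) := fun f g hfg =>
  DFunLike.coe_injective (by
    have := congrArg (fun F : CuspForm (Gamma1 M) k => (F : ℍ → ℂ)) hfg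
    exact this)

lemma qCoeff_levelIncl {N M : ℕ} (h : N ∣ M) (k : ℤ) (f : CuspForm (Gamma1 N) k) (n : ℕ) :
    qCoeff (levelIncl h k f) n = qCoeff f n := rfl

/-- Diamond operators at level `M` on functions of level `N ∣ M`. -/
theorem diamondFun_of_dvd {N M : ℕ} [NeZero N] [NeZero M] (h : N ∣ M) {k : ℤ} {f : ℍ → ℂ}
    (hf : IsInv (Gamma1 N) k f) (d : (ZMod M)ˣ) :
    diamondFun M k d f = diamondFun N k (ZMod.unitsMap h d) f := by
  refine slash_eq_diamondFun hf (ZMod.unitsMap h d) (gamma0_le_of_dvd h (diamondRep_mem M d)) ?_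
  have h1 := diamondRep_entry M d
  have h2 := congrArg (ZMod.castHom h (ZMod N)) h1
  rw [map_intCast] at h2
  rw [h2]
  rfl

theorem diamond_levelIncl {N M : ℕ} [NeZero N] [NeZero M] (h : N ∣ M) (k : ℤ) (d : (ZMod M)ˣ)
    (f : CuspForm (Gamma1 N) k) :
    diamond M k d (levelIncl h k f) = levelIncl h k (diamond N k (ZMod.unitsMap h d) f) :=
  DFunLike.coe_injective (diamondFun_of_dvd h (isInv_of_form f) d)

theorem diamondMF_levelInclMF {N M : ℕ} [NeZero N] [NeZero M] (h : N ∣ M) (k : ℤ)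
    (d : (ZMod M)ˣ) (f : ModularForm (Gamma1 N) k) :
    diamondMF M k d (levelInclMF h k f) = levelInclMF h k (diamondMF N k (ZMod.unitsMap h d) f) :=
  DFunLike.coe_injective (diamondFun_of_dvd h (isInv_of_form f) d)

lemma unitsMap_primeUnit {N M p : ℕ} (h : N ∣ M) (hp : p.Prime) (hpM : ¬ p ∣ M)
    (hpN : ¬ p ∣ N) : ZMod.unitsMap h (primeUnit hp hpM) = primeUnit hp hpN := by
  apply Units.ext
  rw [ZMod.unitsMap_def, Units.coe_map, coe_primeUnit, coe_primeUnit]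
  simp

theorem heckeTpFun_of_dvd {N M : ℕ} [NeZero N] [NeZero M] (h : N ∣ M) {k : ℤ} {p : ℕ}
    (hp : p.Prime) (hpM : ¬ p ∣ M) {f : ℍ → ℂ} (hf : IsInv (Gamma1 N) k f) :
    heckeTpFun M k hp hpM f = heckeTpFun N k hp (fun hpN => hpM (hpN.trans h)) f := by
  rw [heckeTpFun, heckeTpFun, diamondFun_of_dvd h hf, unitsMap_primeUnit h hp hpM]

/-- `T_p` commutes with level inclusion (`p ∤ M`, `N ∣ M`). -/
theorem heckeT1_levelIncl {N M : ℕ} [NeZero N] [NeZero M] (h : N ∣ M) (k : ℤ) {p : ℕ}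
    (hp : p.Prime) (hpM : ¬ p ∣ M) (f : CuspForm (Gamma1 N) k) :
    heckeT1 M k hp hpM (levelIncl h k f) =
      levelIncl h k (heckeT1 N k hp (fun hpN => hpM (hpN.trans h)) f) :=
  DFunLike.coe_injective (heckeTpFun_of_dvd h hp hpM (isInv_of_form f))

theorem heckeT1MF_levelInclMF {N M : ℕ} [NeZero N] [NeZero M] (h : N ∣ M) (k : ℤ) {p : ℕ}
    (hp : p.Prime) (hpM : ¬ p ∣ M) (f : ModularForm (Gamma1 N) k) :
    heckeT1MF M k hp hpM (levelInclMF h k f) =
      levelInclMF h k (heckeT1MF N k hp (fun hpN => hpM (hpN.trans h)) f) :=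
  DFunLike.coe_injective (heckeTpFun_of_dvd h hp hpM (isInv_of_form f))

end Fermat.Agent.S48.Hecke1
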