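/-
S48 (Deligne–Serre), brick B: products `f · E` (helper170).

* `mulForm f E`      : `CuspForm (Gamma1 M) k₁ × ModularForm (Gamma1 M) k₂ → CuspForm (Gamma1 M) (k₁ + k₂)`;
* `mulLevel f E`     : `CuspForm (Gamma1 N) k₁ × ModularForm (Gamma1 l) k₂ → CuspForm (Gamma1 (N * l)) (k₁ + k₂)`;
* `diamond_mulForm`, `diamond_mulLevel` : `⟨d⟩ (f · E) = ⟨d⟩ f · ⟨d⟩ E`;
* `qCoeff_mulForm`, `qCoeff_mulLevel`   : Cauchy product of the `q`-expansions;
* `diamond_eq_smul_of_slash`, `diamond_mulLevel_of_eigen` : nebentypus of a product.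
-/
import Fermat.Agent.S48.Hecke1.Level

set_option autoImplicit false

namespace Fermat.Agent.S48.Hecke1

open CongruenceSubgroup ModularForm UpperHalfPlane Matrix.SpecialLinearGroup ModularFormClass
open scoped MatrixGroups ModularForm Manifold

lemma HasQ.mul {f g : ℍ → ℂ} (hf : HasQ f) (hg : HasQ g) : HasQ (f * g) where
  per := fun w => by
    have h1 := hf.per w
    have h2 := hg.per w
    simp only [Function.comp_apply, Pi.mul_apply] at h1 h2 ⊢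
    rw [h1, h2]
  hol := hf.hol.mul hg.hol
  bdd := hf.bdd.mul hg.bdd

/-- Cauchy product of `q`-expansions. -/
theorem qCoeff_mul {f g : ℍ → ℂ} (hf : HasQ f) (hg : HasQ g) (n : ℕ) :
    qCoeff (f * g) n = ∑ x ∈ Finset.HasAntidiagonal.antidiagonal n, qCoeff f x.1 * qCoeff g x.2 := by
  unfold qCoeff
  rw [qExpansion_mul hf.analyticAt hg.analyticAt, PowerSeries.coeff_mul]

theorem diamondFun_mul_fun (M : ℕ) [NeZero M] (k₁ k₂ : ℤ) (d : (ZMod M)ˣ) (f g : ℍ → ℂ) :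
    diamondFun M (k₁ + k₂) d (f * g) = diamondFun M k₁ d f * diamondFun M k₂ d g :=
  mul_slash_SL2 k₁ k₂ _ f g

/-- The product of a cusp form and a modular form of level `Γ₁(M)`. -/
noncomputable def mulForm {M : ℕ} {k₁ k₂ : ℤ} (f : CuspForm (Gamma1 M) k₁)
    (E : ModularForm (Gamma1 M) k₂) : CuspForm (Gamma1 M) (k₁ + k₂) :=
  f.mulModularForm E

@[simp] lemma coe_mulForm {M : ℕ} {k₁ k₂ : ℤ} (f : CuspForm (Gamma1 M) k₁)
    (E : ModularForm (Gamma1 M) k₂) : ⇑(mulForm f E) = ⇑f * ⇑E := rfl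

lemma mulForm_smul_smul {M : ℕ} {k₁ k₂ : ℤ} (a b : ℂ) (f : CuspForm (Gamma1 M) k₁)
    (E : ModularForm (Gamma1 M) k₂) : mulForm (a • f) (b • E) = (a * b) • mulForm f E :=
  DFunLike.coe_injective (by
    rw [coe_mulForm, FunLike.coe_smul, FunLike.coe_smul, FunLike.coe_smul, coe_mulForm]
    ext τ
    simp only [Pi.mul_apply, Pi.smul_apply, smul_eq_mul]
    ring)

theorem diamond_mulForm {M : ℕ} [NeZero M] {k₁ k₂ : ℤ} (d : (ZMod M)ˣ)
    (f : CuspForm (Gamma1 M) k₁) (E : ModularForm (Gamma1 M) k₂) :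
    diamond M (k₁ + k₂) d (mulForm f E) = mulForm (diamond M k₁ d f) (diamondMF M k₂ d E) :=
  DFunLike.coe_injective (diamondFun_mul_fun M k₁ k₂ d f E)

theorem qCoeff_mulForm {M : ℕ} {k₁ k₂ : ℤ} (f : CuspForm (Gamma1 M) k₁)
    (E : ModularForm (Gamma1 M) k₂) (n : ℕ) :
    qCoeff (mulForm f E) n = ∑ x ∈ Finset.HasAntidiagonal.antidiagonal n, qCoeff f x.1 * qCoeff E x.2 :=
  qCoeff_mul (hasQ_of_form f) (hasQ_of_form E) n

/-- The product of a cusp form of level `Γ₁(N)` and a modular form of level `Γ₁(l)`, as a cusp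
form of level `Γ₁(N l)`. -/
noncomputable def mulLevel {N l : ℕ} {k₁ k₂ : ℤ} (f : CuspForm (Gamma1 N) k₁)
    (E : ModularForm (Gamma1 l) k₂) : CuspForm (Gamma1 (N * l)) (k₁ + k₂) :=
  mulForm (levelIncl (Dvd.intro l rfl) k₁ f) (levelInclMF (Dvd.intro_left N rfl) k₂ E)

@[simp] lemma coe_mulLevel {N l : ℕ} {k₁ k₂ : ℤ} (f : CuspForm (Gamma1 N) k₁)
    (E : ModularForm (Gamma1 l) k₂) : ⇑(mulLevel f E) = ⇑f * ⇑E := rfl

lemma mulLevel_smul_smul {N l : ℕ} {k₁ k₂ : ℤ} (a b : ℂ) (f : CuspForm (Gamma1 N) k₁)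
    (E : ModularForm (Gamma1 l) k₂) : mulLevel (a • f) (b • E) = (a * b) • mulLevel f E := by
  unfold mulLevel
  rw [map_smul, map_smul, mulForm_smul_smul]

theorem qCoeff_mulLevel {N l : ℕ} {k₁ k₂ : ℤ} (f : CuspForm (Gamma1 N) k₁)
    (E : ModularForm (Gamma1 l) k₂) (n : ℕ) :
    qCoeff (mulLevel f E) n = ∑ x ∈ Finset.HasAntidiagonal.antidiagonal n, qCoeff f x.1 * qCoeff E x.2 :=
  qCoeff_mul (hasQ_of_form f) (hasQ_of_form E) n

/-- `⟨d⟩ (f · E) = ⟨d mod N⟩ f · ⟨d mod l⟩ E`. -/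
theorem diamond_mulLevel {N l : ℕ} [NeZero N] [NeZero l] {k₁ k₂ : ℤ} (d : (ZMod (N * l))ˣ)
    (f : CuspForm (Gamma1 N) k₁) (E : ModularForm (Gamma1 l) k₂) :
    diamond (N * l) (k₁ + k₂) d (mulLevel f E) =
      mulLevel (diamond N k₁ (ZMod.unitsMap (Dvd.intro l rfl) d) f)
        (diamondMF l k₂ (ZMod.unitsMap (Dvd.intro_left N rfl) d) E) := by
  unfold mulLevel
  rw [diamond_mulForm, diamond_levelIncl, diamondMF_levelInclMF]

/-- A form with nebentypus `χ` (in the slash form of brick A) is a `⟨d⟩`-eigenvector. -/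
theorem diamond_eq_smul_of_slash {M : ℕ} [NeZero M] {k : ℤ} (f : CuspForm (Gamma1 M) k)
    (χ : ZMod M → ℂ)
    (h : ∀ γ ∈ Gamma0 M, (f : ℍ → ℂ) ∣[k] (mapGL ℝ γ) = χ ((γ 1 1 : ℤ) : ZMod M) • (f : ℍ → ℂ))
    (d : (ZMod M)ˣ) : diamond M k d f = χ (d : ZMod M) • f :=
  DFunLike.coe_injective (by
    rw [coe_diamond, FunLike.coe_smul, ← diamondRep_entry M d]
    exact h _ (diamondRep_mem M d))

theorem diamondMF_eq_smul_of_slash {M : ℕ} [NeZero M] {k : ℤ} (f : ModularForm (Gamma1 M) k)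
    (χ : ZMod M → ℂ)
    (h : ∀ γ ∈ Gamma0 M, (f : ℍ → ℂ) ∣[k] (mapGL ℝ γ) = χ ((γ 1 1 : ℤ) : ZMod M) • (f : ℍ → ℂ))
    (d : (ZMod M)ˣ) : diamondMF M k d f = χ (d : ZMod M) • f :=
  DFunLike.coe_injective (by
    rw [coe_diamondMF, FunLike.coe_smul, ← diamondRep_entry M d]
    exact h _ (diamondRep_mem M d))

/-- Conversely, a `⟨d⟩`-eigenvector has nebentypus in the slash form. -/
theorem slash_eq_smul_of_diamond {M : ℕ} [NeZero M] {k : ℤ} (f : CuspForm (Gamma1 M) k)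
    (χ : (ZMod M)ˣ → ℂ) (h : ∀ d : (ZMod M)ˣ, diamond M k d f = χ d • f)
    (d : (ZMod M)ˣ) {γ : SL(2, ℤ)} (hγ : γ ∈ Gamma0 M) (hd : ((γ 1 1 : ℤ) : ZMod M) = d) :
    (f : ℍ → ℂ) ∣[k] γ = χ d • (f : ℍ → ℂ) := by
  rw [slash_eq_diamond f d hγ hd, h d, FunLike.coe_smul]

/-- **Nebentypus of a product**: if `⟨d⟩ f = χ₁(d) f` at level `N` and `⟨d⟩ E = χ₂(d) E` at
level `l`, then `⟨d⟩ (f E) = χ₁(d mod N) χ₂(d mod l) · f E` at level `N l`. -/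
theorem diamond_mulLevel_of_eigen {N l : ℕ} [NeZero N] [NeZero l] {k₁ k₂ : ℤ}
    (f : CuspForm (Gamma1 N) k₁) (E : ModularForm (Gamma1 l) k₂)
    (χ₁ : (ZMod N)ˣ → ℂ) (χ₂ : (ZMod l)ˣ → ℂ)
    (hf : ∀ d : (ZMod N)ˣ, diamond N k₁ d f = χ₁ d • f)
    (hE : ∀ d : (ZMod l)ˣ, diamondMF l k₂ d E = χ₂ d • E) (d : (ZMod (N * l))ˣ) :
    diamond (N * l) (k₁ + k₂) d (mulLevel f E) =
      (χ₁ (ZMod.unitsMap (Dvd.intro l rfl) d) * χ₂ (ZMod.unitsMap (Dvd.intro_left N rfl) d)) •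
        mulLevel f E := by
  rw [diamond_mulLevel, hf, hE, mulLevel_smul_smul]

end Fermat.Agent.S48.Hecke1
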