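/-
S48 (Deligne–Serre), brick B: weight casts (helper170).  `mulLevel f E` has weight `k₁ + k₂`
(literally `1 + 1` for two forms of weight `1`), while the G1 contract is typed at weight `2`:
`CuspForm.mcast` transports, and every operator of brick B commutes with it
(`diamond_mcast`, `heckeT1_mcast`, `qCoeff_mcast`).
-/
import Fermat.Agent.S48.Hecke1.Product

set_option autoImplicit false

namespace Fermat.Agent.S48.Hecke1

open CongruenceSubgroup ModularForm UpperHalfPlane Matrix.SpecialLinearGroup ModularFormClass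
open scoped MatrixGroups ModularForm Manifold

@[simp] lemma coe_mcast {M : ℕ} {a b : ℤ} (h : a = b) (f : CuspForm (Gamma1 M) a) :
    ⇑(CuspForm.mcast h f : CuspForm (Gamma1 M) b) = ⇑f := rfl

lemma qCoeff_mcast {M : ℕ} {a b : ℤ} (h : a = b) (f : CuspForm (Gamma1 M) a) (n : ℕ) :
    qCoeff (CuspForm.mcast h f : CuspForm (Gamma1 M) b) n = qCoeff f n := rfl

lemma mcast_add {M : ℕ} {a b : ℤ} (h : a = b) (f g : CuspForm (Gamma1 M) a) :
    (CuspForm.mcast h (f + g) : CuspForm (Gamma1 M) b) =
      CuspForm.mcast h f + CuspForm.mcast h g := rfl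

lemma mcast_smul {M : ℕ} {a b : ℤ} (h : a = b) (c : ℂ) (f : CuspForm (Gamma1 M) a) :
    (CuspForm.mcast h (c • f) : CuspForm (Gamma1 M) b) = c • CuspForm.mcast h f := rfl

lemma mcast_injective {M : ℕ} {a b : ℤ} (h : a = b) :
    Function.Injective (fun f : CuspForm (Gamma1 M) a =>
      (CuspForm.mcast h f : CuspForm (Gamma1 M) b)) := fun f g hfg =>
  DFunLike.coe_injective (by
    have := congrArg (fun F : CuspForm (Gamma1 M) b => (F : ℍ → ℂ)) hfg
    exact this)

theorem diamond_mcast {M : ℕ} [NeZero M] {a b : ℤ} (h : a = b) (d : (ZMod M)ˣ)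
    (f : CuspForm (Gamma1 M) a) :
    diamond M b d (CuspForm.mcast h f) = CuspForm.mcast h (diamond M a d f) := by
  subst h; rfl

theorem heckeT1_mcast {M : ℕ} [NeZero M] {a b : ℤ} (h : a = b) {p : ℕ} (hp : p.Prime)
    (hpM : ¬ p ∣ M) (f : CuspForm (Gamma1 M) a) :
    heckeT1 M b hp hpM (CuspForm.mcast h f) = CuspForm.mcast h (heckeT1 M a hp hpM f) := by
  subst h; rfl

end Fermat.Agent.S48.Hecke1
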