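/-
S48 (Deligne–Serre), brick B: `⟨-1⟩ = (-1)^k` on forms of weight `k` and level `Γ₁(M)` (helper170).
-/
import Fermat.Agent.S48.Hecke1.Defs

set_option autoImplicit false

namespace Fermat.Agent.S48.Hecke1

open CongruenceSubgroup ModularForm UpperHalfPlane Matrix.SpecialLinearGroup
open scoped MatrixGroups ModularForm Manifold

/-- Slashing by `-1 ∈ SL(2, ℤ)` multiplies by `(-1)^k`. -/
theorem slash_neg_one_SL (k : ℤ) (f : ℍ → ℂ) :
    f ∣[k] (-1 : SL(2, ℤ)) = ((-1 : ℂ) ^ k) • f := by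
  ext τ
  rw [SL_slash_apply]
  have h1 : (-1 : SL(2, ℤ)) • τ = τ := by
    rw [ModularGroup.SL_neg_smul, one_smul]
  rw [h1]
  simp only [Pi.smul_apply, smul_eq_mul]
  have h3 : denom (toGL ((Matrix.SpecialLinearGroup.map (Int.castRingHom ℝ)) (-1 : SL(2, ℤ)))) τ
      = -1 := by
    simp [denom]
  rw [h3, mul_comm]
  congr 1
  rw [← inv_zpow', inv_neg, inv_one]

theorem diamondFun_neg_one {M : ℕ} [NeZero M] {k : ℤ} {f : ℍ → ℂ} (hf : IsInv (Gamma1 M) k f) :
    diamondFun M k (-1) f = ((-1 : ℂ) ^ k) • f := by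
  have hmem : (-1 : SL(2, ℤ)) ∈ Gamma0 M := by
    rw [Gamma0_mem]
    simp
  rw [← slash_eq_diamondFun hf (-1) hmem (by simp), slash_neg_one_SL]

/-- `⟨-1⟩ = (-1)^k` on `S_k(Γ₁(M))`. -/
theorem diamond_neg_one (M : ℕ) [NeZero M] (k : ℤ) (f : CuspForm (Gamma1 M) k) :
    diamond M k (-1) f = ((-1 : ℂ) ^ k) • f :=
  DFunLike.coe_injective (diamondFun_neg_one (isInv_of_form f))

theorem diamondMF_neg_one (M : ℕ) [NeZero M] (k : ℤ) (f : ModularForm (Gamma1 M) k) :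
    diamondMF M k (-1) f = ((-1 : ℂ) ^ k) • f :=
  DFunLike.coe_injective (diamondFun_neg_one (isInv_of_form f))

/-- In even weight `⟨-1⟩` is the identity. -/
theorem diamond_neg_one_of_even (M : ℕ) [NeZero M] {k : ℤ} (hk : Even k)
    (f : CuspForm (Gamma1 M) k) : diamond M k (-1) f = f := by
  rw [diamond_neg_one, hk.neg_one_zpow, one_smul]

end Fermat.Agent.S48.Hecke1
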